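import Fermat.Agent.S52.CH.Main
import Fermat.Agent.S52.Defs2

/-!
# S52 / CH : Cayley-Hamilton for Frobenius, exported in the shape used by the rest of S52
-/

set_option autoImplicit false

namespace Fermat.Agent.S52

open WeierstrassCurve WeierstrassCurve.Affine

theorem CH.Fr_eq_frobPt (p : ℕ) [Fact p.Prime] (A B : ZMod p) {Ω : Type*} [Field Ω]
    [DecidableEq Ω] [Algebra (ZMod p) Ω] (P : ((sw A B)⁄Ω).Point) :
    CH.Fr A B Ω P = frobPt p (sw A B) P := by
  have h : FiniteField.frobeniusAlgHom (ZMod p) Ω = frobAlg p Ω := by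
    ext x
    rw [FiniteField.coe_frobeniusAlgHom, frobAlg_apply, ZMod.card]
  change Point.map (W' := sw A B) (FiniteField.frobeniusAlgHom (ZMod p) Ω) P
    = Point.map (W' := sw A B) (frobAlg p Ω) P
  rw [h]

theorem CH.two_ne_zero_of_five_le (p : ℕ) [Fact p.Prime] (hp : 5 ≤ p) : (2 : ZMod p) ≠ 0 := by
  intro h
  have h' : ((2 : ℕ) : ZMod p) = 0 := by exact_mod_cast h
  rw [ZMod.natCast_eq_zero_iff] at h'
  have := Nat.le_of_dvd (by norm_num) h'
  omega

/-- Cayley-Hamilton for Frobenius over an algebraically closed field of positive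
transcendence degree. -/
theorem frob_CH (p : ℕ) [Fact p.Prime] (hp : 5 ≤ p) (A B : ZMod p)
    (hΔ : 4 * A ^ 3 + 27 * B ^ 2 ≠ 0) {Ω : Type*} [Field Ω] [DecidableEq Ω] [Algebra (ZMod p) Ω]
    [IsAlgClosed Ω] (τ : Ω) (hτ : Transcendental (ZMod p) τ) (P : ((sw A B)⁄Ω).Point) :
    (2 : ℤ) • (frobPt p (sw A B) (frobPt p (sw A B) P)
      - ((p : ℤ) + 1 - Nat.card (sw A B).toAffine.Point) • frobPt p (sw A B) P + (p : ℤ) • P)
      = 0 := by
  have h := CH.frobenius_CH (A := A) (B := B) (CH.two_ne_zero_of_five_le p hp) hΔ τ hτ P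
  rw [two_zsmul]
  simp only [CH.al, CH.Fr_eq_frobPt, ZMod.card] at h
  exact h

/-- Cayley-Hamilton for Frobenius (board item #149, exact statement). -/
theorem frob_cayley_hamilton (p : ℕ) [Fact p.Prime] (hp : 5 ≤ p) (A B : ZMod p)
    (hΔ : 4 * A ^ 3 + 27 * B ^ 2 ≠ 0) {Ω : Type*} [Field Ω] [DecidableEq Ω] [Algebra (ZMod p) Ω]
    (hΩ : ∃ x : Ω, Transcendental (ZMod p) x) (P : ((sw A B)⁄Ω).Point) :
    (2 : ℤ) • (frobPt p (sw A B) (frobPt p (sw A B) P)
      - (sw A B).traceOfFrobenius • frobPt p (sw A B) P + (p : ℤ) • P) = 0 := by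
  classical
  obtain ⟨τ, hτ⟩ := hΩ
  let Ω' := AlgebraicClosure Ω
  let ψ : Ω →ₐ[ZMod p] Ω' := IsScalarTower.toAlgHom (ZMod p) Ω Ω'
  have hτ' : Transcendental (ZMod p) (ψ τ) := by
    intro h
    exact hτ ((isAlgebraic_algHom_iff ψ ψ.injective).mp h)
  have hcomm : ∀ Q : ((sw A B)⁄Ω).Point,
      Point.map (W' := sw A B) ψ (frobPt p (sw A B) Q)
        = frobPt p (sw A B) (Point.map (W' := sw A B) ψ Q) := by
    intro Q
    rw [← CH.Fr_eq_frobPt, ← CH.Fr_eq_frobPt]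
    exact CH.map_Fr ψ Q
  have h := frob_CH p hp A B hΔ (ψ τ) hτ' (Point.map (W' := sw A B) ψ P)
  apply Point.map_injective (W' := sw A B) ψ
  rw [map_zero, map_zsmul, map_add, map_sub, map_zsmul, map_zsmul, hcomm, hcomm]
  have ht : (sw A B).traceOfFrobenius = (p : ℤ) + 1 - Nat.card (sw A B).toAffine.Point := by
    rw [WeierstrassCurve.traceOfFrobenius, WeierstrassCurve.card, Nat.card_zmod]
  rw [ht]
  exact h

end Fermat.Agent.S52
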