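import Fermat.Agent.S52.CH.Defs

/-!
# S52 / CH-A : x-coordinates of `P + Q` and `P - Q`

`(x(P+Q) x(P-Q) : x(P+Q) + x(P-Q) : 1) = phi (x(P) x(Q) : x(P) + x(Q) : 1)` projectively, for all
pairs of nonsingular points of a Weierstrass curve over a field.
-/

set_option autoImplicit false

namespace Fermat.Agent.S52.CH

open WeierstrassCurve WeierstrassCurve.Affine

variable {L : Type*} [Field L] [DecidableEq L] (W : Affine L)

/-- generic case: different `x`-coordinates. -/
theorem sym2x_add_sub_of_X_ne {x₁ y₁ x₂ y₂ : L} (h₁ : W.Nonsingular x₁ y₁)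
    (h₂ : W.Nonsingular x₂ y₂) (hx : x₁ ≠ x₂) :
    (Point.some x₁ y₁ h₁ + Point.some x₂ y₂ h₂).sym2x (Point.some x₁ y₁ h₁ - Point.some x₂ y₂ h₂)
      = ((x₁ - x₂) ^ 2)⁻¹ • phi W.b₂ W.b₄ W.b₆ W.b₈
          ((Point.some x₁ y₁ h₁).sym2x (Point.some x₂ y₂ h₂)) := by
  have hD : x₁ - x₂ ≠ 0 := sub_ne_zero.2 hx
  have e₁ := (equation_iff _ _).1 h₁.1
  have e₂ := (equation_iff _ _).1 h₂.1
  rw [sub_eq_add_neg, Point.neg_some, Point.add_of_X_ne hx, Point.add_of_X_ne hx,
    Point.sym2x_some_some, Point.sym2x_some_some, slope_of_X_ne hx, slope_of_X_ne hx]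
  simp only [phi, addX, negY]
  ext i
  fin_cases i
  · simp
    field_simp
    simp only [WeierstrassCurve.b₄, WeierstrassCurve.b₆, WeierstrassCurve.b₈]
    grind
  · simp
    field_simp
    simp only [WeierstrassCurve.b₂, WeierstrassCurve.b₄, WeierstrassCurve.b₆]
    linear_combination 2 * e₁ + 2 * e₂
  · simp
    field_simp
    ring

/-- duplication. -/
theorem sym2x_add_self {x y : L} (h : W.Nonsingular x y) :
    ∃ c : L, c ≠ 0 ∧ (Point.some x y h + Point.some x y h).sym2x 0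
      = c • phi W.b₂ W.b₄ W.b₆ W.b₈ ((Point.some x y h).sym2x (Point.some x y h)) := by
  have e := (equation_iff _ _).1 h.1
  by_cases hy : y = W.negY x y
  · -- `2 P = 0`
    rw [Point.add_self_of_Y_eq hy, Point.sym2x_zero_zero, Point.sym2x_some_some]
    have hns := ((nonsingular_iff _ _).1 h).2
    have hy' : y = -y - W.a₁ * x - W.a₃ := hy
    have hW : W.a₁ * y - (3 * x ^ 2 + 2 * W.a₂ * x + W.a₄) ≠ 0 := by
      rcases hns with hns | hns
      · exact sub_ne_zero.2 hns
      · exact absurd hy' hns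
    have hg : x ^ 4 - W.b₄ * x ^ 2 - 2 * W.b₆ * x - W.b₈
        = (W.a₁ * y - (3 * x ^ 2 + 2 * W.a₂ * x + W.a₄)) ^ 2 := by
      simp only [WeierstrassCurve.b₄, WeierstrassCurve.b₆, WeierstrassCurve.b₈]
      grind
    have hf : 4 * x ^ 3 + W.b₂ * x ^ 2 + 2 * W.b₄ * x + W.b₆ = 0 := by
      simp only [WeierstrassCurve.b₂, WeierstrassCurve.b₄, WeierstrassCurve.b₆]
      grind
    refine ⟨((W.a₁ * y - (3 * x ^ 2 + 2 * W.a₂ * x + W.a₄)) ^ 2)⁻¹, by positivity, ?_⟩
    rw [← hg]
    have hg0 : x ^ 4 - W.b₄ * x ^ 2 - 2 * W.b₆ * x - W.b₈ ≠ 0 := by rw [hg]; positivity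
    simp only [phi]
    ext i
    fin_cases i
    · simp
      rw [eq_comm, inv_mul_eq_one₀ hg0]
      ring
    · simp
      right
      linear_combination hf
    · simp
      right
      ring
  · rw [Point.add_self_of_Y_ne hy, Point.sym2x_some_zero, Point.sym2x_some_some,
      slope_of_Y_ne rfl hy]
    have hD : y - W.negY x y ≠ 0 := sub_ne_zero.2 hy
    obtain ⟨D, hDd⟩ : ∃ D, D = y - W.negY x y := ⟨_, rfl⟩
    rw [← hDd] at hD ⊢
    have hD' : D = 2 * y + W.a₁ * x + W.a₃ := by rw [hDd, negY]; ring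
    refine ⟨(D ^ 2)⁻¹, by positivity, ?_⟩
    simp only [phi, addX]
    ext i
    fin_cases i
    · simp
      field_simp
      simp only [WeierstrassCurve.b₄, WeierstrassCurve.b₆, WeierstrassCurve.b₈]
      subst hD'
      grind
    · simp
      field_simp
      simp only [WeierstrassCurve.b₂, WeierstrassCurve.b₄, WeierstrassCurve.b₆]
      subst hD'
      grind
    · simp
      right
      ring

theorem sym2x_add_sub (P Q : W.Point) :
    ∃ c : L, c ≠ 0 ∧ (P + Q).sym2x (P - Q) = c • phi W.b₂ W.b₄ W.b₆ W.b₈ (P.sym2x Q) := by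
  match P, Q with
  | 0, 0 => exact ⟨1, one_ne_zero, by simp [phi]⟩
  | 0, Point.some x y h =>
    refine ⟨1, one_ne_zero, ?_⟩
    rw [zero_add, zero_sub, Point.sym2x_neg_right, Point.sym2x_some_some, Point.sym2x_zero_some]
    simp only [phi]
    ext i
    fin_cases i <;> simp <;> ring
  | Point.some x y h, 0 =>
    refine ⟨1, one_ne_zero, ?_⟩
    rw [add_zero, sub_zero, Point.sym2x_some_some, Point.sym2x_some_zero]
    simp only [phi]
    ext i
    fin_cases i <;> simp <;> ring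
  | Point.some x₁ y₁ h₁, Point.some x₂ y₂ h₂ =>
    by_cases hx : x₁ = x₂
    · subst hx
      rcases Y_eq_of_X_eq h₁.1 h₂.1 rfl with hy | hy
      · subst hy
        rw [sub_self]
        exact sym2x_add_self W h₁
      · have hQ : Point.some x₁ y₂ h₂ = - Point.some x₁ y₁ h₁ := by
          rw [Point.neg_some]
          congr 1
          rw [hy, negY_negY]
        rw [hQ, add_neg_cancel, sub_neg_eq_add, Point.sym2x_comm, Point.sym2x_neg_right]
        exact sym2x_add_self W h₁
    · exact ⟨_, by have := sub_ne_zero.2 hx; positivity, sym2x_add_sub_of_X_ne W h₁ h₂ hx⟩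

end Fermat.Agent.S52.CH
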