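import Fermat.Agent.S52.CH.Defs
import Fermat.Agent.S52.RF1

/-!
# S52 / CH : bridge between `Ht ![r, 1] n` and `rdeg r = n`
-/

set_option autoImplicit false

namespace Fermat.Agent.S52.CH

open Polynomial

variable {k : Type*} [Field k]

theorem Prim_pair_iff (v : Fin 2 → k[X]) : Prim v ↔ IsCoprime (v 0) (v 1) := by
  have h : Set.range v = {v 0, v 1} := by
    ext x
    simp only [Set.mem_range, Set.mem_insert_iff, Set.mem_singleton_iff]
    constructor
    · rintro ⟨i, rfl⟩
      fin_cases i
      · left; rfl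
      · right; rfl
    · rintro (rfl | rfl)
      · exact ⟨0, rfl⟩
      · exact ⟨1, rfl⟩
  rw [Prim, h, Ideal.span_insert, Ideal.sup_eq_top_iff_isCoprime]

theorem HasDeg_pair_iff (v : Fin 2 → k[X]) (hv : v 1 ≠ 0) (N : ℕ) :
    HasDeg v N ↔ max (v 0).natDegree (v 1).natDegree = N := by
  constructor
  · rintro ⟨h1, i, hi⟩
    apply le_antisymm (max_le (h1 0) (h1 1))
    have : N ≤ (v i).natDegree := le_natDegree_of_ne_zero hi
    fin_cases i
    · exact le_trans this (le_max_left _ _)
    · exact le_trans this (le_max_right _ _)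
  · rintro rfl
    refine ⟨fun i => ?_, ?_⟩
    · fin_cases i
      · exact le_max_left _ _
      · exact le_max_right _ _
    · rcases le_total (v 0).natDegree (v 1).natDegree with h | h
      · refine ⟨1, ?_⟩
        rw [max_eq_right h, coeff_natDegree]
        exact leadingCoeff_ne_zero.mpr hv
      · rcases eq_or_ne (v 0) 0 with h0 | h0
        · refine ⟨1, ?_⟩
          rw [h0, natDegree_zero] at h ⊢
          rw [max_eq_right (Nat.zero_le _), coeff_natDegree]
          exact leadingCoeff_ne_zero.mpr hv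
        · refine ⟨0, ?_⟩
          rw [max_eq_left h, coeff_natDegree]
          exact leadingCoeff_ne_zero.mpr h0

/-- The two notions of degree of a rational function agree. -/
theorem Ht_pair_iff_rdeg (r : RatFunc k) (n : ℕ) : Ht ![r, 1] n ↔ rdeg r = n := by
  constructor
  · rintro ⟨v, hP, hD, c, hc, hv⟩
    have h0 : r = c * algebraMap k[X] (RatFunc k) (v 0) := hv 0
    have h1 : (1 : RatFunc k) = c * algebraMap k[X] (RatFunc k) (v 1) := hv 1
    have hv1 : v 1 ≠ 0 := by
      intro h
      rw [h, map_zero, mul_zero] at h1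
      exact one_ne_zero h1
    have hv1' : algebraMap k[X] (RatFunc k) (v 1) ≠ 0 := RatFunc.algebraMap_ne_zero hv1
    have hr : r = algebraMap k[X] (RatFunc k) (v 0) / algebraMap k[X] (RatFunc k) (v 1) := by
      rw [eq_div_iff hv1', h0, mul_right_comm, ← h1, one_mul]
    rw [hr, rdeg_div_of_isCoprime _ _ hv1 ((Prim_pair_iff v).mp hP)]
    exact (HasDeg_pair_iff v hv1 n).mp hD
  · rintro rfl
    refine ⟨![r.num, r.denom], (Prim_pair_iff _).mpr r.isCoprime_num_denom,
      (HasDeg_pair_iff _ r.denom_ne_zero _).mpr rfl,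
      (algebraMap k[X] (RatFunc k) r.denom)⁻¹,
      inv_ne_zero (RatFunc.algebraMap_ne_zero r.denom_ne_zero), fun i => ?_⟩
    fin_cases i
    · change r = _
      conv_lhs => rw [← RatFunc.num_div_denom r]
      rw [div_eq_inv_mul]
      rfl
    · change (1 : RatFunc k) = _
      exact (inv_mul_cancel₀ (RatFunc.algebraMap_ne_zero r.denom_ne_zero)).symm

theorem Ht_rdeg (r : RatFunc k) : Ht ![r, 1] (rdeg r) := (Ht_pair_iff_rdeg r _).mpr rfl

end Fermat.Agent.S52.CH
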