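import Fermat.Agent.S52.CH.Bridge
import Fermat.Agent.S52.RF2

/-!
# S52 / CH-B2 : degree of a composition of rational functions
-/

set_option autoImplicit false

namespace Fermat.Agent.S52.CH

open Polynomial

variable {k : Type*} [Field k]

theorem compHom_X {ρ : RatFunc k} (h : Transcendental k ρ) : compHom ρ RatFunc.X = ρ := by
  rw [compHom, dif_pos h, RatFunc.liftAlgHom_apply]
  simp

theorem transcendental_of_Ht {ρ : RatFunc k} {m : ℕ} (hρ : Ht ![ρ, 1] m) (hm : 0 < m) :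
    Transcendental k ρ := by
  apply RatFunc.transcendental_of_ne_C
  intro hc
  have h1 : rdeg ρ = m := (Ht_pair_iff_rdeg ρ m).mp hρ
  have h2 : rdeg ρ = 0 := (rdeg_eq_zero_iff ρ).mpr hc
  omega

theorem Ht_comp {r ρ : RatFunc k} {n m : ℕ} (hr : Ht ![r, 1] n) (hρ : Ht ![ρ, 1] m)
    (hm : 0 < m) : Ht ![compHom ρ r, 1] (n * m) := by
  rw [Ht_pair_iff_rdeg] at hr hρ ⊢
  have hρ' : Ht ![ρ, 1] m := (Ht_pair_iff_rdeg ρ m).mpr hρ
  rw [rdeg_algHom, compHom_X (transcendental_of_Ht hρ' hm), hr, hρ]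

end Fermat.Agent.S52.CH
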