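import Mathlib

/-!
# S52 / CH : common definitions for the Manin-style proof of Cayley-Hamilton for Frobenius
-/

set_option autoImplicit false

namespace Fermat.Agent.S52.CH

open Polynomial

/-- explicit form of Mathlib's `WeierstrassCurve.addSubMap` on coordinate vectors. -/
def phi {L : Type*} [CommRing L] (b2 b4 b6 b8 : L) (v : Fin 3 → L) : Fin 3 → L :=
  ![v 0 ^ 2 - b4 * v 0 * v 2 - b6 * v 1 * v 2 - b8 * v 2 ^ 2,
    2 * v 1 * v 0 + b2 * v 0 * v 2 + b4 * v 1 * v 2 + b6 * v 2 ^ 2,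
    v 1 ^ 2 - 4 * v 0 * v 2]

/-- symmetric square `ℙ¹ × ℙ¹ → ℙ²` on coordinate vectors
(`P.sym2x Q = sym2 P.xRep Q.xRep` by `rfl`). -/
def sym2 {L : Type*} [CommRing L] (p q : Fin 2 → L) : Fin 3 → L :=
  ![p 0 * q 0, p 0 * q 1 + p 1 * q 0, p 1 * q 1]

variable {k : Type*} [Field k]

/-- unimodular polynomial vector -/
def Prim {n : ℕ} (v : Fin n → k[X]) : Prop := Ideal.span (Set.range v) = ⊤

/-- all degrees `≤ N`, and some coefficient of degree `N` is nonzero -/
def HasDeg {n : ℕ} (v : Fin n → k[X]) (N : ℕ) : Prop :=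
  (∀ i, (v i).natDegree ≤ N) ∧ ∃ i, (v i).coeff N ≠ 0

/-- `w` represents a point of `ℙⁿ⁻¹(k(X))` of height (degree) `N`. -/
def Ht {n : ℕ} (w : Fin n → RatFunc k) (N : ℕ) : Prop :=
  ∃ v : Fin n → k[X], Prim v ∧ HasDeg v N ∧
    ∃ c : RatFunc k, c ≠ 0 ∧ ∀ i, w i = c * algebraMap k[X] (RatFunc k) (v i)

/-- substitution `X ↦ ρ` on `k(X)` (junk = identity if `ρ` is algebraic over `k`). -/
noncomputable def compHom (ρ : RatFunc k) : RatFunc k →ₐ[k] RatFunc k :=
  open Classical in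
  if h : Transcendental k ρ then
    RatFunc.liftAlgHom (aeval ρ : k[X] →ₐ[k] RatFunc k)
      (nonZeroDivisors_le_comap_nonZeroDivisors_of_injective _
        (transcendental_iff_injective.mp h))
  else AlgHom.id k _

end Fermat.Agent.S52.CH
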