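import Fermat.Agent.S52.CH.Defs

/-!
# S52 / CH-C : the function field `K = k(X)(y₀)`, `y₀² = X³ + A X + B`
-/

set_option autoImplicit false

namespace Fermat.Agent.S52.CH

open Polynomial

variable {k : Type*} [Field k] (A B : k)

/-- `f(X) = X³ + A X + B` as an element of `k(X)`. -/
noncomputable def lam : RatFunc k := RatFunc.X ^ 3 + RatFunc.C A * RatFunc.X + RatFunc.C B

lemma lam_eq : lam A B = algebraMap k[X] (RatFunc k) (X ^ 3 + C A * X + C B) := by
  simp [lam, RatFunc.algebraMap_X, RatFunc.algebraMap_C]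

lemma intDegree_lam : (lam A B).intDegree = 3 := by
  rw [lam_eq, RatFunc.intDegree_polynomial]
  have : (X ^ 3 + C A * X + C B : k[X]).natDegree = 3 := by compute_degree!
  rw [this]; rfl

lemma lam_ne_zero : lam A B ≠ 0 := by
  intro h
  have := intDegree_lam A B
  rw [h] at this
  simp at this

/-- `c * f(X)` is not a square in `k(X)` -/
lemma not_sq_lam (r : RatFunc k) (c : k) (hc : c ≠ 0) : r ^ 2 * lam A B ≠ RatFunc.C c := by
  intro h
  have hr : r ≠ 0 := by
    rintro rfl
    simp only [ne_eq, OfNat.ofNat_ne_zero, not_false_eq_true, zero_pow, zero_mul] at h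
    exact hc (RatFunc.C_injective (by rw [← h, map_zero]))
  have h1 := congrArg RatFunc.intDegree h
  rw [RatFunc.intDegree_mul (pow_ne_zero 2 hr) (lam_ne_zero A B), intDegree_lam, pow_two,
    RatFunc.intDegree_mul hr hr, RatFunc.intDegree_C] at h1
  omega

/-- the defining polynomial of `K` -/
noncomputable def defPoly : (RatFunc k)[X] := X ^ 2 - C (lam A B)

lemma monic_defPoly : (defPoly A B).Monic := by
  unfold defPoly; monicity!

lemma natDegree_defPoly : (defPoly A B).natDegree = 2 := by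
  unfold defPoly; compute_degree!

theorem irreducible_defPoly : Irreducible (defPoly A B) := by
  rw [(monic_defPoly A B).irreducible_iff_roots_eq_zero_of_degree_le_three
    (by rw [natDegree_defPoly]) (by rw [natDegree_defPoly]; norm_num)]
  rw [Multiset.eq_zero_iff_forall_notMem]
  intro r hr
  rw [mem_roots (monic_defPoly A B).ne_zero, IsRoot, defPoly] at hr
  simp only [eval_sub, eval_pow, eval_X, eval_C] at hr
  have hr0 : r ≠ 0 := by
    rintro rfl
    simp at hr
    exact lam_ne_zero A B hr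
  have h1 := congrArg RatFunc.intDegree (sub_eq_zero.mp hr)
  rw [intDegree_lam, pow_two, RatFunc.intDegree_mul hr0 hr0] at h1
  omega

instance : Fact (Irreducible (defPoly A B)) := ⟨irreducible_defPoly A B⟩

/-- the function field of `y² = x³ + A x + B` -/
abbrev KE := AdjoinRoot (defPoly A B)

/-- `y₀` -/
noncomputable def y0 : KE A B := AdjoinRoot.root (defPoly A B)

/-- `X` in `K` -/
noncomputable def xK : KE A B := algebraMap (RatFunc k) (KE A B) RatFunc.X

lemma y0_sq : y0 A B ^ 2 = algebraMap (RatFunc k) (KE A B) (lam A B) := by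
  have h := AdjoinRoot.eval₂_root (defPoly A B)
  have h' : ∀ g : (RatFunc k)[X], g = X ^ 2 - C (lam A B) →
      eval₂ (AdjoinRoot.of (defPoly A B)) (AdjoinRoot.root (defPoly A B)) g
      = AdjoinRoot.root (defPoly A B) ^ 2 - AdjoinRoot.of (defPoly A B) (lam A B) := by
    intro g hg
    rw [hg]
    simp only [eval₂_sub, eval₂_pow, eval₂_X, eval₂_C]
  rw [h' (defPoly A B) rfl] at h
  exact sub_eq_zero.mp h

lemma y0_sq' : y0 A B ^ 2 = xK A B ^ 3 + algebraMap k (KE A B) A * xK A B
    + algebraMap k (KE A B) B := by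
  rw [y0_sq, lam, xK]
  simp only [map_add, map_mul, map_pow]
  rw [IsScalarTower.algebraMap_apply k (RatFunc k) (KE A B) A,
    IsScalarTower.algebraMap_apply k (RatFunc k) (KE A B) B, RatFunc.algebraMap_eq_C]

lemma y0_ne_zero : y0 A B ≠ 0 := by
  intro h
  have := y0_sq A B
  rw [h] at this
  simp only [ne_eq, OfNat.ofNat_ne_zero, not_false_eq_true, zero_pow] at this
  exact lam_ne_zero A B ((algebraMap (RatFunc k) (KE A B)).injective (by rw [← this, map_zero]))

lemma algebraMap_injective : Function.Injective (algebraMap (RatFunc k) (KE A B)) :=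
  (algebraMap (RatFunc k) (KE A B)).injective

/-- every element is `u + v y₀` -/
lemma exists_rep (z : KE A B) : ∃ u v : RatFunc k,
    z = algebraMap _ _ u + algebraMap _ _ v * y0 A B := by
  obtain ⟨p, rfl⟩ := AdjoinRoot.mk_surjective z
  have hdeg : (p %ₘ defPoly A B).natDegree < 2 := by
    have := natDegree_modByMonic_lt p (monic_defPoly A B) (by
      intro h
      have := natDegree_defPoly A B
      rw [h] at this
      simp at this)
    rwa [natDegree_defPoly] at this
  have hp : AdjoinRoot.mk (defPoly A B) p = AdjoinRoot.mk (defPoly A B) (p %ₘ defPoly A B) := by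
    rw [AdjoinRoot.mk_eq_mk, modByMonic_eq_sub_mul_div, sub_sub_cancel]
    exact dvd_mul_right _ _
  refine ⟨(p %ₘ defPoly A B).coeff 0, (p %ₘ defPoly A B).coeff 1, ?_⟩
  rw [hp]
  conv_lhs => rw [as_sum_range' (p %ₘ defPoly A B) 2 hdeg]
  simp only [Finset.sum_range_succ, Finset.sum_range_zero, zero_add, map_add]
  rw [← C_mul_X_pow_eq_monomial, ← C_mul_X_pow_eq_monomial]
  simp only [pow_zero, mul_one, pow_one, map_mul, AdjoinRoot.mk_C, AdjoinRoot.mk_X]
  rfl

/-- the nontrivial automorphism -/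
noncomputable def sig : KE A B →ₐ[RatFunc k] KE A B :=
  AdjoinRoot.liftAlgHom (defPoly A B) (Algebra.ofId _ _) (- y0 A B) (by
    simp only [defPoly, eval₂_sub, eval₂_pow, eval₂_X, eval₂_C]
    rw [neg_sq, y0_sq, sub_eq_zero]
    rfl)

lemma sig_y0 : sig A B (y0 A B) = - y0 A B := by
  exact AdjoinRoot.liftAlgHom_root _ _ _ _

lemma sig_fixed (h2 : (2 : k) ≠ 0) {z : KE A B} (hz : sig A B z = z) :
    ∃ r : RatFunc k, z = algebraMap _ _ r := by
  obtain ⟨u, v, rfl⟩ := exists_rep A B z
  rw [map_add, map_mul, AlgHom.commutes, AlgHom.commutes, sig_y0] at hz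
  have h2' : (2 : KE A B) ≠ 0 := by
    intro h
    apply h2
    apply (algebraMap k (KE A B)).injective
    rw [map_ofNat, h, map_zero]
  have : (2 : KE A B) * (algebraMap (RatFunc k) (KE A B) v * y0 A B) = 0 := by
    linear_combination -hz
  have hv : algebraMap (RatFunc k) (KE A B) v = 0 := by
    rcases mul_eq_zero.mp this with h | h
    · exact absurd h h2'
    · exact (mul_eq_zero.mp h).resolve_right (y0_ne_zero A B)
  exact ⟨u, by rw [hv]; ring⟩

lemma sig_anti (h2 : (2 : k) ≠ 0) {z : KE A B} (hz : sig A B z = - z) :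
    ∃ r : RatFunc k, z = algebraMap _ _ r * y0 A B := by
  have : sig A B (z / y0 A B) = z / y0 A B := by
    rw [map_div₀, hz, sig_y0, neg_div_neg_eq]
  obtain ⟨r, hr⟩ := sig_fixed A B h2 this
  exact ⟨r, by rw [← hr, div_mul_cancel₀ _ (y0_ne_zero A B)]⟩

section lift

variable {A B} {Ω : Type*} [Field Ω] [Algebra k Ω]

/-- `k(X) → Ω`, `X ↦ x'`. -/
noncomputable def liftR (x' : Ω) (htr : Transcendental k x') : RatFunc k →ₐ[k] Ω :=
  RatFunc.liftAlgHom (aeval x' : k[X] →ₐ[k] Ω)
    (nonZeroDivisors_le_comap_nonZeroDivisors_of_injective _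
      (transcendental_iff_injective.mp htr))

lemma liftR_algebraMap (x' : Ω) (htr : Transcendental k x') (p : k[X]) :
    liftR x' htr (algebraMap k[X] (RatFunc k) p) = aeval x' p := by
  have := RatFunc.liftAlgHom_apply_div (aeval x' : k[X] →ₐ[k] Ω)
    (nonZeroDivisors_le_comap_nonZeroDivisors_of_injective _
      (transcendental_iff_injective.mp htr)) p 1
  simpa [liftR] using this

lemma liftR_X (x' : Ω) (htr : Transcendental k x') : liftR x' htr RatFunc.X = x' := by
  rw [← RatFunc.algebraMap_X, liftR_algebraMap, aeval_X]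

lemma liftR_lam (x' : Ω) (htr : Transcendental k x') :
    liftR x' htr (lam A B) = x' ^ 3 + algebraMap k Ω A * x' + algebraMap k Ω B := by
  rw [lam_eq, liftR_algebraMap]
  simp

/-- `K → Ω`, `X ↦ x'`, `y₀ ↦ y'`. -/
noncomputable def liftK (x' y' : Ω) (htr : Transcendental k x')
    (h : y' ^ 2 = x' ^ 3 + algebraMap k Ω A * x' + algebraMap k Ω B) : KE A B →ₐ[k] Ω :=
  AdjoinRoot.liftAlgHom (defPoly A B) (liftR x' htr) y' (by
    simp only [defPoly, eval₂_sub, eval₂_pow, eval₂_X, eval₂_C]
    rw [h, sub_eq_zero]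
    exact (liftR_lam x' htr).symm)

lemma liftK_algebraMap (x' y' : Ω) (htr : Transcendental k x')
    (h : y' ^ 2 = x' ^ 3 + algebraMap k Ω A * x' + algebraMap k Ω B) (r : RatFunc k) :
    liftK x' y' htr h (algebraMap _ _ r) = liftR x' htr r :=
  AdjoinRoot.liftAlgHom_of _ _ _ _ r

lemma liftK_xK (x' y' : Ω) (htr : Transcendental k x')
    (h : y' ^ 2 = x' ^ 3 + algebraMap k Ω A * x' + algebraMap k Ω B) :
    liftK x' y' htr h (xK A B) = x' := by
  rw [xK, liftK_algebraMap, liftR_X]

lemma liftK_y0 (x' y' : Ω) (htr : Transcendental k x')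
    (h : y' ^ 2 = x' ^ 3 + algebraMap k Ω A * x' + algebraMap k Ω B) :
    liftK x' y' htr h (y0 A B) = y' :=
  AdjoinRoot.liftAlgHom_root _ _ _ _

end lift

end Fermat.Agent.S52.CH
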