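import Fermat.Agent.S52.CH.Odd

/-!
# S52 / CH-F2 : Frobenius on odd points
-/

set_option autoImplicit false

namespace Fermat.Agent.S52.CH

open WeierstrassCurve WeierstrassCurve.Affine Polynomial

variable {k : Type*} [Field k] [Fintype k] (A B : k)

/-- Frobenius on `L`-points -/
noncomputable def Fr (L : Type*) [Field L] [DecidableEq L] [Algebra k L] :
    ((EW A B)⁄L).Point →+ ((EW A B)⁄L).Point :=
  Point.map (W' := EW A B) (FiniteField.frobeniusAlgHom k L)

variable {A B}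

lemma map_Fr {L L' : Type*} [Field L] [DecidableEq L] [Algebra k L] [Field L'] [DecidableEq L']
    [Algebra k L'] (ψ : L →ₐ[k] L') (P : ((EW A B)⁄L).Point) :
    Point.map (W' := EW A B) ψ (Fr A B L P) = Fr A B L' (Point.map (W' := EW A B) ψ P) := by
  have e : ψ.comp (FiniteField.frobeniusAlgHom k L) = (FiniteField.frobeniusAlgHom k L').comp ψ := by
    ext x
    change ψ (x ^ Fintype.card k) = (ψ x) ^ Fintype.card k
    rw [map_pow]
  simp only [Fr, Point.map_map, e]

lemma Fr_mem_M {P : PK A B} (hP : P ∈ M A B) : Fr A B (KE A B) P ∈ M A B := by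
  rw [mem_M] at hP ⊢
  rw [Sg, map_Fr, ← Sg, hP, map_neg]

lemma HasD_Fr {P : PK A B} {N : ℕ} (h : HasD A B P N) :
    HasD A B (Fr A B (KE A B) P) (Fintype.card k * N) := by
  obtain ⟨ξ, hξ, hN⟩ := h
  refine ⟨![ξ 0 ^ Fintype.card k, ξ 1 ^ Fintype.card k], fun i => ?_, Ht_pow ?_ _⟩
  · rw [Fr, xRep_map, hξ i, FiniteField.coe_frobeniusAlgHom]
    fin_cases i <;> simp
  · have : ξ = ![ξ 0, ξ 1] := by
      funext i; fin_cases i <;> rfl
    rwa [← this]

variable (A B)

lemma nonsingular_eta (h2 : (2 : k) ≠ 0) (hΔ : 4 * A ^ 3 + 27 * B ^ 2 ≠ 0) :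
    ((EW A B)⁄(KE A B)).Nonsingular (xK A B) (y0 A B) := by
  have hΔ' : ((EW A B)⁄(KE A B)).Δ ≠ 0 := by
    change ((EW A B).map (algebraMap k (KE A B))).Δ ≠ 0
    rw [WeierstrassCurve.map_Δ]
    exact fun h => EW_Δ_ne_zero h2 hΔ ((algebraMap k (KE A B)).injective (by rw [h, map_zero]))
  rw [← equation_iff_nonsingular_of_Δ_ne_zero hΔ', equation_iff]
  have := y0_sq' A B
  simp [this]

/-- the generic point -/
noncomputable def eta (h2 : (2 : k) ≠ 0) (hΔ : 4 * A ^ 3 + 27 * B ^ 2 ≠ 0) : PK A B :=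
  Point.some _ _ (nonsingular_eta A B h2 hΔ)

variable {A B}

lemma eta_mem_M (h2 : (2 : k) ≠ 0) (hΔ : 4 * A ^ 3 + 27 * B ^ 2 ≠ 0) :
    eta A B h2 hΔ ∈ M A B := by
  rw [mem_M, eta, Sg, Point.map_some, Point.neg_some, Point.some.injEq]
  constructor
  · exact (sig A B).commutes _
  · change sig A B (y0 A B) = _
    rw [sig_y0]
    simp [negY]

lemma HasD_eta (h2 : (2 : k) ≠ 0) (hΔ : 4 * A ^ 3 + 27 * B ^ 2 ≠ 0) :
    HasD A B (eta A B h2 hΔ) 1 :=
  HasD_some.mpr Ht_X


omit [Fintype k] in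
lemma HasD_some' {x y : KE A B} {h : ((EW A B)⁄(KE A B)).Nonsingular x y} {r : RatFunc k}
    (hx : x = algebraMap _ _ r) {N : ℕ} : HasD A B (Point.some x y h) N ↔ Ht ![r, 1] N := by
  subst hx
  exact HasD_some

lemma card_odd (h2 : (2 : k) ≠ 0) : (Fintype.card k - 1) / 2 * 2 + 1 = Fintype.card k := by
  have hodd : Fintype.card k % 2 = 1 := by
    apply FiniteField.odd_card_of_char_ne_two
    intro h
    apply h2
    have : ((ringChar k : ℕ) : k) = 0 := ringChar.Nat.cast_ringChar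
    rw [h] at this
    exact_mod_cast this
  omega

lemma xK_pow_ne : xK A B ^ Fintype.card k ≠ xK A B := by
  intro h
  have h1 : (RatFunc.X : RatFunc k) ^ Fintype.card k = RatFunc.X := by
    apply algebraMap_injective A B
    rw [map_pow]
    exact h
  have h3 := congrArg RatFunc.intDegree h1
  rw [← RatFunc.algebraMap_X, ← map_pow, RatFunc.intDegree_polynomial,
    RatFunc.intDegree_polynomial, natDegree_X_pow, natDegree_X] at h3
  have := Fintype.one_lt_card (α := k)
  omega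

lemma HasD_Fr_eta_sub (h2 : (2 : k) ≠ 0) (hΔ : 4 * A ^ 3 + 27 * B ^ 2 ≠ 0) :
    HasD A B (Fr A B (KE A B) (eta A B h2 hΔ) - eta A B h2 hΔ)
      (Nat.card (EW A B).toAffine.Point) := by
  rw [sub_eq_add_neg, eta, Fr, Point.map_some, Point.neg_some,
    Point.add_of_X_ne (by exact xK_pow_ne)]
  refine (HasD_some' ?_).mpr (manin h2 A B hΔ)
  rw [slope_of_X_ne (by exact xK_pow_ne)]
  have hq := card_odd h2
  set m := (Fintype.card k - 1) / 2 with hm
  have hl : algebraMap (RatFunc k) (KE A B)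
      (RatFunc.X ^ 3 + RatFunc.C A * RatFunc.X + RatFunc.C B) = y0 A B ^ 2 := (y0_sq A B).symm
  have hX : algebraMap (RatFunc k) (KE A B) RatFunc.X = xK A B := rfl
  simp only [map_sub, map_div₀, map_mul, map_pow, map_add, map_one, hX]
  simp only [map_add, map_mul, map_pow, hX] at hl
  rw [hl]
  have hy : (FiniteField.frobeniusAlgHom k (KE A B)) (y0 A B) = y0 A B * (y0 A B ^ 2) ^ m := by
    rw [FiniteField.coe_frobeniusAlgHom]
    change y0 A B ^ Fintype.card k = _
    rw [← hq]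
    ring
  have hx : (FiniteField.frobeniusAlgHom k (KE A B)) (xK A B) = xK A B ^ Fintype.card k := rfl
  rw [hy, hx]
  simp only [addX, negY]
  have a1 : ((EW A B)⁄(KE A B)).a₁ = 0 := by simp
  have a2 : ((EW A B)⁄(KE A B)).a₂ = 0 := by simp
  have a3 : ((EW A B)⁄(KE A B)).a₃ = 0 := by simp
  rw [a1, a2, a3, div_pow]
  ring


omit [Fintype k] in
lemma liftR_comp {ρ : RatFunc k} (htr : Transcendental k ρ)
    (htr' : Transcendental k (algebraMap (RatFunc k) (KE A B) ρ)) (r : RatFunc k) :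
    liftR (algebraMap (RatFunc k) (KE A B) ρ) htr' r
      = algebraMap (RatFunc k) (KE A B) (compHom ρ r) := by
  rw [compHom, dif_pos htr, liftR, RatFunc.liftAlgHom_apply, RatFunc.liftAlgHom_apply, map_div₀,
    aeval_algebraMap_apply, aeval_algebraMap_apply]

lemma exists_subst (h2 : (2 : k) ≠ 0) (hΔ : 4 * A ^ 3 + 27 * B ^ 2 ≠ 0) {Q : PK A B}
    (hQ : Q ∈ M A B) {m : ℕ} (hm : 0 < m) (hD : HasD A B Q m) :
    ∃ ψ : KE A B →ₐ[k] KE A B, Point.map (W' := EW A B) ψ (eta A B h2 hΔ) = Q ∧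
      ∀ (P : PK A B) (n : ℕ), HasD A B P n →
        HasD A B (Point.map (W' := EW A B) ψ P) (n * m) := by
  rcases Q with _ | ⟨x, y, h⟩
  · exact absurd (hD.unique HasD_zero) hm.ne'
  obtain ⟨⟨ρ, rfl⟩, -⟩ := odd_coords h2 hQ
  have hρ : Ht ![ρ, 1] m := HasD_some.mp hD
  have htr : Transcendental k ρ := transcendental_of_Ht hρ hm
  have htr' : Transcendental k (algebraMap (RatFunc k) (KE A B) ρ) :=
    (transcendental_algebraMap_iff (algebraMap_injective A B)).mpr htr
  have heq : y ^ 2 = (algebraMap (RatFunc k) (KE A B) ρ) ^ 3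
      + algebraMap k (KE A B) A * (algebraMap (RatFunc k) (KE A B) ρ)
      + algebraMap k (KE A B) B := by
    have := h.1
    rw [equation_iff] at this
    simpa using this
  refine ⟨liftK _ y htr' heq, ?_, ?_⟩
  · rw [eta, Point.map_some, Point.some.injEq]
    exact ⟨liftK_xK _ _ _ _, liftK_y0 _ _ _ _⟩
  · intro P n hP
    rcases P with _ | ⟨x', y', h'⟩
    · have : n = 0 := hP.unique HasD_zero
      subst this
      rw [zero_mul]
      exact HasD_zero
    · obtain ⟨ξ, hξ, hN⟩ := hP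
      have hx' : x' = algebraMap (RatFunc k) (KE A B) (ξ 0) := by simpa using hξ 0
      have hr : Ht ![ξ 0, 1] n := (HasD_some' hx').mp ⟨ξ, hξ, hN⟩
      rw [Point.map_some]
      refine (HasD_some' ?_).mpr (Ht_comp hr hρ hm)
      rw [hx', liftK_algebraMap, liftR_comp htr]

end Fermat.Agent.S52.CH
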