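import Fermat.Agent.S52.CH.Frob
import Fermat.Prelude.Def_FLTPrelim_Modularity

/-!
# S52 / CH-F3 : Cayley-Hamilton at the generic point
-/

set_option autoImplicit false

namespace Fermat.Agent.S52.CH

open WeierstrassCurve WeierstrassCurve.Affine Polynomial

variable {k : Type*} [Field k] [Fintype k] {A B : k}

/-- an odd point of degree `0` is 2-torsion -/
lemma two_tors_of_HasD_zero (h2 : (2 : k) ≠ 0) {Z : PK A B} (hZ : Z ∈ M A B)
    (hD : HasD A B Z 0) : Z + Z = 0 := by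
  rcases Z with _ | ⟨x, y, h⟩
  · rfl
  obtain ⟨⟨r, rfl⟩, ⟨s, rfl⟩⟩ := odd_coords h2 hZ
  obtain ⟨c, rfl⟩ := (Ht_zero_iff r).mp (HasD_some.mp hD)
  have heq := h.1
  rw [equation_iff] at heq
  have heq' : algebraMap (RatFunc k) (KE A B) (s ^ 2 * lam A B)
      = algebraMap (RatFunc k) (KE A B) (RatFunc.C (c ^ 3 + A * c + B)) := by
    rw [map_mul, map_pow, ← y0_sq]
    simp only [map_add, map_mul, map_pow]
    rw [← algebraMap_k, ← algebraMap_k, ← algebraMap_k]
    have : (algebraMap (RatFunc k) (KE A B) s * y0 A B) ^ 2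
        = algebraMap k (KE A B) c ^ 3 + algebraMap k (KE A B) A * algebraMap k (KE A B) c
          + algebraMap k (KE A B) B := by
      rw [← algebraMap_k] at heq
      simpa using heq
    rw [← this]; ring
  have heq'' := algebraMap_injective A B heq'
  have hs : s = 0 := by
    by_cases hc : c ^ 3 + A * c + B = 0
    · rw [hc, map_zero] at heq''
      rcases mul_eq_zero.mp heq'' with h0 | h0
      · simpa using h0
      · exact absurd h0 (lam_ne_zero A B)
    · exact absurd heq'' (not_sq_lam A B s _ hc)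
  subst hs
  apply Point.add_self_of_Y_eq
  simp [negY]

section main

variable (h2 : (2 : k) ≠ 0) (hΔ : 4 * A ^ 3 + 27 * B ^ 2 ≠ 0)

include h2 hΔ in
theorem generic_CH :
    let η := eta A B h2 hΔ
    let F := Fr A B (KE A B)
    let Z := F (F η) - ((Fintype.card k : ℤ) + 1 - Nat.card (EW A B).toAffine.Point) • F η
      + (Fintype.card k : ℤ) • η
    Z + Z = 0 := by
  intro η F Z
  set q : ℤ := (Fintype.card k : ℤ) with hq
  set N : ℤ := (Nat.card (EW A B).toAffine.Point : ℤ) with hN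
  have hη : η ∈ M A B := eta_mem_M h2 hΔ
  have hFη : F η ∈ M A B := Fr_mem_M hη
  have hFFη : F (F η) ∈ M A B := Fr_mem_M hFη
  let p₁ : M A B := ⟨F (F η), hFFη⟩
  let p₂ : M A B := ⟨F η, hFη⟩
  let p₃ : M A B := ⟨η, hη⟩
  let d : M A B → ℤ := fun P => (dg A B (P : PK A B) : ℤ)
  have hpar : ∀ P Q : M A B, d (P + Q) + d (P - Q) = 2 * d P + 2 * d Q :=
    dg_parallelogram h2 hΔ
  have key := quad_of_parallelogram d hpar p₁ p₂ p₃
  have d3 : d p₃ = 1 := by
    change (dg A B η : ℤ) = 1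
    rw [dg_eq (HasD_eta h2 hΔ)]; rfl
  have d2 : d p₂ = q := by
    change (dg A B (F η) : ℤ) = q
    rw [dg_eq (HasD_Fr (HasD_eta h2 hΔ))]; simp [hq]
  have d1 : d p₁ = q ^ 2 := by
    change (dg A B (F (F η)) : ℤ) = q ^ 2
    rw [dg_eq (HasD_Fr (HasD_Fr (HasD_eta h2 hΔ)))]; simp [hq]; ring
  have d12 : d (p₁ + p₂) = q * d (p₂ + p₃) := by
    change (dg A B (F (F η) + F η) : ℤ) = q * (dg A B (F η + η) : ℤ)
    have hmem : F η + η ∈ M A B := (p₂ + p₃).2
    rw [← map_add, dg_eq (HasD_Fr (HasD_dg h2 hmem))]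
    simp [hq]
  have hNd : d (p₂ - p₃) = N := by
    change (dg A B (F η - η) : ℤ) = N
    rw [dg_eq (HasD_Fr_eta_sub h2 hΔ)]
  have hNpos : 0 < Nat.card (EW A B).toAffine.Point := Nat.card_pos
  have hNN : d (p₁ - p₂ - p₂ + p₃) = N ^ 2 := by
    obtain ⟨ψ, hψη, hψ⟩ := exists_subst h2 hΔ (p₂ - p₃).2 hNpos (HasD_Fr_eta_sub h2 hΔ)
    have h1 := hψ _ _ (HasD_Fr_eta_sub h2 hΔ)
    have e : Point.map (W' := EW A B) ψ (Fr A B (KE A B) (eta A B h2 hΔ) - eta A B h2 hΔ)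
        = F (F η) - F η - F η + η := by
      rw [map_sub, map_Fr, hψη]
      change F (F η - η) - (F η - η) = _
      rw [map_sub]
      abel
    rw [e] at h1
    change (dg A B (F (F η) - F η - F η + η) : ℤ) = N ^ 2
    rw [dg_eq h1]
    push_cast
    ring
  have k1 := key 0 1 (-1)
  have k2 := key 1 (-2) 1
  have k3 := key 1 (-(q + 1 - N)) q
  have e1 : (0 : ℤ) • p₁ + (1 : ℤ) • p₂ + (-1 : ℤ) • p₃ = p₂ - p₃ := by
    simp [sub_eq_add_neg]
  have e2 : (1 : ℤ) • p₁ + (-2 : ℤ) • p₂ + (1 : ℤ) • p₃ = p₁ - p₂ - p₂ + p₃ := by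
    rw [one_smul, one_smul, neg_smul, two_smul]; abel
  rw [e1, hNd, d1, d2, d3] at k1
  rw [e2, hNN, d1, d2, d3, d12] at k2
  rw [d1, d2, d3, d12] at k3
  have hzero : d ((1 : ℤ) • p₁ + (-(q + 1 - N)) • p₂ + q • p₃) = 0 := by
    rw [k3]
    have s23 : d (p₂ + p₃) = 2 * q + 2 - N := by linear_combination k1
    rw [s23] at k2 ⊢
    have s13 : d (p₁ + p₃) = N ^ 2 - 4 * q + 2 * q * (q + 1 - N) + 2 * (q + 1 - N) := by
      linear_combination -k2
    rw [s13]
    ring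
  have hZ : (((1 : ℤ) • p₁ + (-(q + 1 - N)) • p₂ + q • p₃ : M A B) : PK A B) = Z := by
    simp only [AddSubgroup.coe_add, AddSubgroup.coe_zsmul, one_smul, neg_smul]
    rfl
  have hZM : Z ∈ M A B := hZ ▸ ((1 : ℤ) • p₁ + (-(q + 1 - N)) • p₂ + q • p₃ : M A B).2
  have hdZ : dg A B Z = 0 := by
    have : (dg A B Z : ℤ) = 0 := by rw [← hZ]; exact hzero
    exact_mod_cast this
  have := HasD_dg h2 hZM
  rw [hdZ] at this
  exact two_tors_of_HasD_zero h2 hZM this

end main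

end Fermat.Agent.S52.CH
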