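import Fermat.Agent.S52.CH.Defs

/-!
# S52 / CH-B1 : the exact degree-height on `ℙⁿ(k(X))` and the parallelogram law
-/

set_option autoImplicit false

namespace Fermat.Agent.S52.CH

open Polynomial

/-! ### Non-vanishing modulo a prime ideal -/

section Prime

variable {R : Type*} [CommRing R]

theorem sym2_not_mem (M : Ideal R) [hM : M.IsPrime] {p q : Fin 2 → R}
    (hp : ∃ i, p i ∉ M) (hq : ∃ i, q i ∉ M) : ∃ i, sym2 p q i ∉ M := by
  by_contra h
  push Not at h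
  have h0 : p 0 * q 0 ∈ M := by simpa [sym2] using h 0
  have h1 : p 0 * q 1 + p 1 * q 0 ∈ M := by simpa [sym2] using h 1
  have h2 : p 1 * q 1 ∈ M := by simpa [sym2] using h 2
  have hp' : p 0 ∉ M ∨ p 1 ∉ M := by
    obtain ⟨i, hi⟩ := hp
    fin_cases i
    · exact Or.inl hi
    · exact Or.inr hi
  have hq' : q 0 ∉ M ∨ q 1 ∉ M := by
    obtain ⟨i, hi⟩ := hq
    fin_cases i
    · exact Or.inl hi
    · exact Or.inr hi
  rcases hM.mem_or_mem h0 with hp0 | hq0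
  · have hp1 : p 1 ∉ M := hp'.resolve_left (not_not.mpr hp0)
    have hq1 : q 1 ∈ M := (hM.mem_or_mem h2).resolve_left hp1
    have h3 : p 1 * q 0 ∈ M := by
      have := M.sub_mem h1 (M.mul_mem_right (q 1) hp0)
      simpa using this
    have hq0 : q 0 ∈ M := (hM.mem_or_mem h3).resolve_left hp1
    rcases hq' with h | h
    · exact h hq0
    · exact h hq1
  · have hq1 : q 1 ∉ M := hq'.resolve_left (not_not.mpr hq0)
    have hp1 : p 1 ∈ M := (hM.mem_or_mem h2).resolve_right hq1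
    have h3 : p 0 * q 1 ∈ M := by
      have := M.sub_mem h1 (M.mul_mem_right (q 0) hp1)
      simpa using this
    have hp0 : p 0 ∈ M := (hM.mem_or_mem h3).resolve_right hq1
    rcases hp' with h | h
    · exact h hp0
    · exact h hp1

theorem phi_cert (b2 b4 b6 b8 : R) (hrel : 4 * b8 = b2 * b6 - b4 ^ 2) (v : Fin 3 → R)
    (i : Fin 3) :
    ∃ c : Fin 3 → R,
      (-b2 ^ 2 * b8 - 8 * b4 ^ 3 - 27 * b6 ^ 2 + 9 * b2 * b4 * b6) * v i ^ 4 =
        c 0 * phi b2 b4 b6 b8 v 0 + c 1 * phi b2 b4 b6 b8 v 1 + c 2 * phi b2 b4 b6 b8 v 2 := by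
  generalize hs : v 0 = s
  generalize ht : v 1 = t
  generalize hu : v 2 = u
  fin_cases i
  · refine ⟨![(-b2 ^ 2 * b8 + 9 * b2 * b4 * b6 - 8 * b4 ^ 3 - 27 * b6 ^ 2) * s ^ 2 +
        (2 * b2 * b4 * b8 - 2 * b4 ^ 2 * b6 - 10 * b6 * b8) * s * t +
        (-b2 * b6 * b8 + b4 * b6 ^ 2) * s * u +
        (3 * b4 ^ 2 * b8 - 3 * b4 * b6 ^ 2) * t ^ 2 +
        (3 * b4 * b6 * b8 - 3 * b6 ^ 3) * t * u,
      (-b2 * b4 * b8 + b4 ^ 2 * b6 + 5 * b6 * b8) * s ^ 2 +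
        (2 * b2 * b6 * b8 - 2 * b4 * b6 ^ 2 - 10 * b8 ^ 2) * s * t +
        (-b2 * b8 ^ 2 + b4 * b6 * b8) * s * u +
        (3 * b4 * b6 * b8 - 3 * b6 ^ 3) * t ^ 2 +
        (3 * b4 * b8 ^ 2 - 3 * b6 ^ 2 * b8) * t * u,
      (b2 * b6 * b8 - 8 * b4 ^ 2 * b8 + 7 * b4 * b6 ^ 2) * s ^ 2 +
        (-6 * b4 * b6 * b8 + 6 * b6 ^ 3) * s * t +
        (-8 * b4 * b8 ^ 2 + 8 * b6 ^ 2 * b8) * s * u], ?_⟩
    simp [phi, hs, ht, hu]
    grind only
  · refine ⟨![(96 * b6) * s * t + (12 * b2 * b6 - 64 * b8) * t ^ 2 +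
        (16 * b4 * b6) * t * u,
      (-48 * b6) * s ^ 2 + (32 * b8) * s * t +
        (-4 * b2 * b8 + 16 * b4 * b6) * t ^ 2 + (16 * b4 * b8) * t * u,
      (-12 * b2 * b6) * s ^ 2 + (8 * b2 * b8 - 32 * b4 * b6) * s * t +
        (-12 * b6 ^ 2) * s * u +
        (-b2 ^ 2 * b8 + 9 * b2 * b4 * b6 - 8 * b4 ^ 3 - 27 * b6 ^ 2) * t ^ 2 +
        (4 * b2 * b4 * b8 - 4 * b2 * b6 ^ 2) * t * u], ?_⟩
    simp [phi, hs, ht, hu]
    grind only
  · refine ⟨![(-12) * t ^ 2 + (-4 * b2) * t * u + (b2 ^ 2 - 32 * b4) * u ^ 2,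
      6 * s * t + (-b2) * s * u + (-5 * b4) * t * u + (b2 * b4 - 27 * b6) * u ^ 2,
      (-8 * b4) * s * u + (-12 * b6) * t * u + (b4 ^ 2 - 28 * b8) * u ^ 2], ?_⟩
    simp [phi, hs, ht, hu]
    grind only

theorem phi_not_mem (M : Ideal R) [hM : M.IsPrime] (b2 b4 b6 b8 : R)
    (hrel : 4 * b8 = b2 * b6 - b4 ^ 2)
    (hΔ : -b2 ^ 2 * b8 - 8 * b4 ^ 3 - 27 * b6 ^ 2 + 9 * b2 * b4 * b6 ∉ M)
    {v : Fin 3 → R} (hv : ∃ i, v i ∉ M) : ∃ i, phi b2 b4 b6 b8 v i ∉ M := by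
  by_contra h
  push Not at h
  obtain ⟨i, hi⟩ := hv
  obtain ⟨c, hc⟩ := phi_cert b2 b4 b6 b8 hrel v i
  have hmem : (-b2 ^ 2 * b8 - 8 * b4 ^ 3 - 27 * b6 ^ 2 + 9 * b2 * b4 * b6) * v i ^ 4 ∈ M := by
    rw [hc]
    exact M.add_mem (M.add_mem (M.mul_mem_left _ (h 0)) (M.mul_mem_left _ (h 1)))
      (M.mul_mem_left _ (h 2))
  rcases hM.mem_or_mem hmem with h1 | h1
  · exact hΔ h1
  · exact hi (hM.mem_of_pow_mem 4 h1)

end Prime

variable {k : Type*} [Field k]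

/-! ### Unimodular vectors -/

theorem prim_iff {n : ℕ} (v : Fin n → k[X]) :
    Prim v ↔ ∀ M : Ideal k[X], M.IsPrime → ∃ i, v i ∉ M := by
  constructor
  · intro h M hM
    by_contra hc
    push Not at hc
    apply hM.ne_top
    rw [eq_top_iff, ← h, Ideal.span_le]
    rintro _ ⟨i, rfl⟩
    exact hc i
  · intro h
    by_contra hc
    obtain ⟨M, hM, hle⟩ := Ideal.exists_le_maximal _ hc
    obtain ⟨i, hi⟩ := h M hM.isPrime
    exact hi (hle (Ideal.subset_span ⟨i, rfl⟩))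

theorem Prim.exists_sum {n : ℕ} {v : Fin n → k[X]} (h : Prim v) :
    ∃ u : Fin n → k[X], ∑ i, u i * v i = 1 := by
  have h1 : (1 : k[X]) ∈ Ideal.span (Set.range v) := by
    rw [show Ideal.span (Set.range v) = ⊤ from h]; trivial
  exact (Ideal.mem_span_range_iff_exists_fun).mp h1

theorem prim_of_isCoprime {a b : k[X]} (h : IsCoprime a b) : Prim ![a, b] := by
  obtain ⟨u, v, huv⟩ := h
  unfold Prim
  rw [Ideal.eq_top_iff_one, Ideal.mem_span_range_iff_exists_fun]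
  exact ⟨![u, v], by simpa [Fin.sum_univ_two] using huv⟩

theorem C_two' : (C (2 : k) : k[X]) = 2 := map_ofNat C 2
theorem C_four' : (C (4 : k) : k[X]) = 4 := map_ofNat C 4
theorem C_eight' : (C (8 : k) : k[X]) = 8 := map_ofNat C 8
theorem C_nine' : (C (9 : k) : k[X]) = 9 := map_ofNat C 9
theorem C_twentyseven' : (C (27 : k) : k[X]) = 27 := map_ofNat C 27

theorem C_not_mem {M : Ideal k[X]} (hM : M.IsPrime) {a : k} (ha : a ≠ 0) : (C a : k[X]) ∉ M := by
  intro h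
  exact hM.ne_top (Ideal.eq_top_of_isUnit_mem _ h (isUnit_C.mpr ha.isUnit))

theorem Prim.sym2 {p q : Fin 2 → k[X]} (hp : Prim p) (hq : Prim q) : Prim (sym2 p q) := by
  rw [prim_iff] at hp hq ⊢
  intro M hM
  exact sym2_not_mem M (hp M hM) (hq M hM)

theorem Prim.phi (b2 b4 b6 b8 : k) (hrel : 4 * b8 = b2 * b6 - b4 ^ 2)
    (hΔ : -b2 ^ 2 * b8 - 8 * b4 ^ 3 - 27 * b6 ^ 2 + 9 * b2 * b4 * b6 ≠ 0)
    {v : Fin 3 → k[X]} (hv : Prim v) : Prim (phi (C b2) (C b4) (C b6) (C b8) v) := by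
  rw [prim_iff] at hv ⊢
  intro M hM
  refine phi_not_mem M _ _ _ _ ?_ ?_ (hv M hM)
  · have := congrArg (C : k → k[X]) hrel
    simpa [C_two', C_four', C_eight', C_nine', C_twentyseven'] using this
  · have := C_not_mem hM hΔ
    simpa [C_two', C_four', C_eight', C_nine', C_twentyseven'] using this

theorem Prim.pow {v : Fin 2 → k[X]} (hv : Prim v) (m : ℕ) : Prim ![v 0 ^ m, v 1 ^ m] := by
  rw [prim_iff] at hv ⊢
  intro M hM
  obtain ⟨i, hi⟩ := hv M hM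
  refine ⟨i, fun h => hi ?_⟩
  fin_cases i
  · exact hM.mem_of_pow_mem m (by simpa using h)
  · exact hM.mem_of_pow_mem m (by simpa using h)

/-- two unimodular vectors which are proportional differ by a nonzero constant. -/
theorem Prim.eq_C_mul {n : ℕ} {v v' : Fin n → k[X]} (hv : Prim v) (hv' : Prim v')
    {a b : k[X]} (hb : b ≠ 0) (h : ∀ i, a * v i = b * v' i) :
    ∃ e : k, e ≠ 0 ∧ ∀ i, v' i = C e * v i := by
  obtain ⟨u, hu⟩ := hv.exists_sum
  obtain ⟨u', hu'⟩ := hv'.exists_sum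
  have h1 : a = b * ∑ i, u i * v' i := by
    calc a = a * ∑ i, u i * v i := by rw [hu, mul_one]
      _ = ∑ i, u i * (a * v i) := by
        rw [Finset.mul_sum]; exact Finset.sum_congr rfl fun i _ => by ring
      _ = ∑ i, u i * (b * v' i) := by simp_rw [h]
      _ = b * ∑ i, u i * v' i := by
        rw [Finset.mul_sum]; exact Finset.sum_congr rfl fun i _ => by ring
  have h2 : b = a * ∑ i, u' i * v i := by
    calc b = b * ∑ i, u' i * v' i := by rw [hu', mul_one]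
      _ = ∑ i, u' i * (b * v' i) := by
        rw [Finset.mul_sum]; exact Finset.sum_congr rfl fun i _ => by ring
      _ = ∑ i, u' i * (a * v i) := by simp_rw [h]
      _ = a * ∑ i, u' i * v i := by
        rw [Finset.mul_sum]; exact Finset.sum_congr rfl fun i _ => by ring
  set s := ∑ i, u i * v' i with hs
  set s' := ∑ i, u' i * v i with hs'
  have h3 : s * s' = 1 := by
    have : b * (s * s') = b * 1 := by
      rw [mul_one, ← mul_assoc, ← h1, ← h2]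
    exact mul_left_cancel₀ hb this
  have hunit : IsUnit s := IsUnit.of_mul_eq_one _ h3
  obtain ⟨e, he, hes⟩ := Polynomial.isUnit_iff.mp hunit
  refine ⟨e, he.ne_zero, fun i => ?_⟩
  have : b * v' i = b * (C e * v i) := by
    rw [← h i, hes, ← mul_assoc, ← h1]
  exact mul_left_cancel₀ hb this

/-! ### Top coefficients -/

/-- `f` has degree at most `N` and its coefficient of degree `N` is `a`. -/
def TopC (f : k[X]) (N : ℕ) (a : k) : Prop := f.natDegree ≤ N ∧ f.coeff N = a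

theorem TopC.of_le {f : k[X]} {N : ℕ} (h : f.natDegree ≤ N) : TopC f N (f.coeff N) := ⟨h, rfl⟩

theorem TopC.mul {f g : k[X]} {m n : ℕ} {a b : k} (hf : TopC f m a) (hg : TopC g n b) :
    TopC (f * g) (m + n) (a * b) :=
  ⟨natDegree_mul_le_of_le hf.1 hg.1, by
    rw [coeff_mul_add_eq_of_natDegree_le hf.1 hg.1, hf.2, hg.2]⟩

theorem TopC.add {f g : k[X]} {n : ℕ} {a b : k} (hf : TopC f n a) (hg : TopC g n b) :
    TopC (f + g) n (a + b) :=
  ⟨natDegree_add_le_of_degree_le hf.1 hg.1, by rw [coeff_add, hf.2, hg.2]⟩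

theorem TopC.sub {f g : k[X]} {n : ℕ} {a b : k} (hf : TopC f n a) (hg : TopC g n b) :
    TopC (f - g) n (a - b) :=
  ⟨(natDegree_sub_le_of_le hf.1 hg.1).trans (by simp), by rw [coeff_sub, hf.2, hg.2]⟩

theorem TopC.C_mul {f : k[X]} {n : ℕ} {a : k} (c : k) (hf : TopC f n a) :
    TopC (C c * f) n (c * a) :=
  ⟨(natDegree_C_mul_le c f).trans hf.1, by rw [coeff_C_mul, hf.2]⟩

theorem TopC.pow {f : k[X]} {n : ℕ} {a : k} (hf : TopC f n a) (m : ℕ) :
    TopC (f ^ m) (m * n) (a ^ m) :=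
  ⟨natDegree_pow_le_of_le m hf.1, by rw [coeff_pow_of_natDegree_le hf.1, hf.2]⟩

theorem hasDeg_of_topC {n : ℕ} {v : Fin n → k[X]} {N : ℕ} {t : Fin n → k}
    (h : ∀ i, TopC (v i) N (t i)) (ht : ∃ i, t i ≠ 0) : HasDeg v N :=
  ⟨fun i => (h i).1, by
    obtain ⟨i, hi⟩ := ht
    exact ⟨i, by rw [(h i).2]; exact hi⟩⟩

theorem HasDeg.topC {n : ℕ} {v : Fin n → k[X]} {N : ℕ} (h : HasDeg v N) (i : Fin n) :
    TopC (v i) N ((v i).coeff N) := ⟨h.1 i, rfl⟩

theorem not_mem_bot_iff {a : k} : a ∉ (⊥ : Ideal k) ↔ a ≠ 0 := by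
  rw [Ideal.mem_bot]

theorem HasDeg.sym2 {p q : Fin 2 → k[X]} {m n : ℕ} (hp : HasDeg p m) (hq : HasDeg q n) :
    HasDeg (sym2 p q) (m + n) := by
  refine hasDeg_of_topC (t := CH.sym2 (fun i => (p i).coeff m) (fun i => (q i).coeff n)) ?_ ?_
  · intro i
    fin_cases i
    · exact (hp.topC 0).mul (hq.topC 0)
    · exact ((hp.topC 0).mul (hq.topC 1)).add ((hp.topC 1).mul (hq.topC 0))
    · exact (hp.topC 1).mul (hq.topC 1)
  · have := sym2_not_mem (⊥ : Ideal k) (p := fun i => (p i).coeff m)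
      (q := fun i => (q i).coeff n) (by simpa only [not_mem_bot_iff] using hp.2)
      (by simpa only [not_mem_bot_iff] using hq.2)
    simpa only [not_mem_bot_iff] using this

theorem HasDeg.phi (b2 b4 b6 b8 : k) (hrel : 4 * b8 = b2 * b6 - b4 ^ 2)
    (hΔ : -b2 ^ 2 * b8 - 8 * b4 ^ 3 - 27 * b6 ^ 2 + 9 * b2 * b4 * b6 ≠ 0)
    {v : Fin 3 → k[X]} {N : ℕ} (hv : HasDeg v N) :
    HasDeg (phi (C b2) (C b4) (C b6) (C b8) v) (2 * N) := by
  refine hasDeg_of_topC (t := CH.phi b2 b4 b6 b8 (fun i => (v i).coeff N)) ?_ ?_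
  · have h0 := hv.topC 0
    have h1 := hv.topC 1
    have h2 := hv.topC 2
    intro i
    fin_cases i
    · have := (((h0.pow 2).sub (two_mul N ▸ ((h0.C_mul b4).mul h2))).sub
        (two_mul N ▸ ((h1.C_mul b6).mul h2))).sub ((h2.pow 2).C_mul b8)
      simpa [CH.phi] using this
    · have := (((two_mul N ▸ ((h1.C_mul 2).mul h0)).add
        (two_mul N ▸ ((h0.C_mul b2).mul h2))).add
        (two_mul N ▸ ((h1.C_mul b4).mul h2))).add ((h2.pow 2).C_mul b6)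
      simpa [CH.phi, C_two', C_four', C_eight', C_nine', C_twentyseven'] using this
    · have := (h1.pow 2).sub (two_mul N ▸ ((h0.C_mul 4).mul h2))
      simpa [CH.phi, C_two', C_four', C_eight', C_nine', C_twentyseven'] using this
  · have := phi_not_mem (⊥ : Ideal k) b2 b4 b6 b8 hrel (by simpa only [not_mem_bot_iff] using hΔ)
      (v := fun i => (v i).coeff N) (by simpa only [not_mem_bot_iff] using hv.2)
    simpa only [not_mem_bot_iff] using this

theorem HasDeg.pow {v : Fin 2 → k[X]} {N : ℕ} (hv : HasDeg v N) (m : ℕ) :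
    HasDeg ![v 0 ^ m, v 1 ^ m] (m * N) := by
  refine hasDeg_of_topC (t := ![(v 0).coeff N ^ m, (v 1).coeff N ^ m]) ?_ ?_
  · intro i
    fin_cases i
    · exact (hv.topC 0).pow m
    · exact (hv.topC 1).pow m
  · obtain ⟨i, hi⟩ := hv.2
    refine ⟨i, ?_⟩
    fin_cases i
    · exact pow_ne_zero m hi
    · exact pow_ne_zero m hi

/-! ### The height -/

local notation "ι" => algebraMap k[X] (RatFunc k)

theorem Ht.unique {n : ℕ} {w : Fin n → RatFunc k} {N N' : ℕ} (h : Ht w N) (h' : Ht w N') :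
    N = N' := by
  obtain ⟨v, hv, hd, c, hc, hw⟩ := h
  obtain ⟨v', hv', hd', c', hc', hw'⟩ := h'
  -- `c / c' = a / b`
  have hb : (c / c').denom ≠ 0 := RatFunc.denom_ne_zero _
  have hb' : ι (c / c').denom ≠ 0 := RatFunc.algebraMap_ne_zero hb
  have key : ∀ i, (c / c').num * v i = (c / c').denom * v' i := by
    intro i
    apply RatFunc.algebraMap_injective k
    rw [map_mul, map_mul]
    have h1 : c * ι (v i) = c' * ι (v' i) := by rw [← hw i, ← hw' i]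
    have h2 : ι (c / c').num = (c / c') * ι (c / c').denom := by
      rw [eq_comm, ← eq_div_iff hb', RatFunc.num_div_denom]
    rw [h2]
    field_simp
    exact h1
  obtain ⟨e, he, hev⟩ := hv.eq_C_mul hv' hb key
  apply le_antisymm
  · obtain ⟨i, hi⟩ := hd.2
    have : (v' i).coeff N ≠ 0 := by
      rw [hev i, coeff_C_mul]; exact mul_ne_zero he hi
    exact (le_natDegree_of_ne_zero this).trans (hd'.1 i)
  · obtain ⟨i, hi⟩ := hd'.2
    have : (v i).coeff N' ≠ 0 := by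
      rw [hev i, coeff_C_mul] at hi; exact right_ne_zero_of_mul hi
    exact (le_natDegree_of_ne_zero this).trans (hd.1 i)

theorem Ht.smul {n : ℕ} {w : Fin n → RatFunc k} {N : ℕ} (h : Ht w N) {c : RatFunc k}
    (hc : c ≠ 0) : Ht (c • w) N := by
  obtain ⟨v, hv, hd, c', hc', hw⟩ := h
  exact ⟨v, hv, hd, c * c', mul_ne_zero hc hc', fun i => by
    rw [Pi.smul_apply, smul_eq_mul, hw i, mul_assoc]⟩

theorem Ht_of_poly {a b : k[X]} {N : ℕ} (hcop : IsCoprime a b) (ha : a.natDegree ≤ N)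
    (hb : b.natDegree ≤ N) (hN : a.coeff N ≠ 0 ∨ b.coeff N ≠ 0) :
    Ht ![algebraMap k[X] (RatFunc k) a, algebraMap k[X] (RatFunc k) b] N := by
  refine ⟨![a, b], prim_of_isCoprime hcop, ⟨?_, ?_⟩, 1, one_ne_zero, ?_⟩
  · intro i
    fin_cases i
    · exact ha
    · exact hb
  · rcases hN with h | h
    · exact ⟨0, h⟩
    · exact ⟨1, h⟩
  · intro i
    fin_cases i <;> simp

theorem Ht.exists_pair (r : RatFunc k) : ∃ N, Ht ![r, 1] N := by
  have hd : r.denom ≠ 0 := RatFunc.denom_ne_zero _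
  have hd' : ι r.denom ≠ 0 := RatFunc.algebraMap_ne_zero hd
  refine ⟨max r.num.natDegree r.denom.natDegree, ?_⟩
  have h := Ht_of_poly (RatFunc.isCoprime_num_denom r) (le_max_left _ _) (le_max_right _ _)
    (N := max r.num.natDegree r.denom.natDegree) ?_
  · have h2 := h.smul (inv_ne_zero hd')
    convert h2 using 1
    ext i
    fin_cases i
    · simp only [Fin.zero_eta, Matrix.cons_val_zero, Pi.smul_apply, smul_eq_mul]
      rw [inv_mul_eq_div, RatFunc.num_div_denom]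
    · simp [inv_mul_cancel₀ hd']
  · rcases le_total r.num.natDegree r.denom.natDegree with hle | hle
    · right
      rw [max_eq_right hle]
      simpa using hd
    · rcases eq_or_ne r.num 0 with h0 | h0
      · right
        rw [h0] at hle ⊢
        simp only [natDegree_zero, Nat.le_zero_eq] at hle
        rw [hle]
        simp only [natDegree_zero, max_self]
        rw [← hle]
        simpa using hd
      · left
        rw [max_eq_left hle]
        simpa using h0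

theorem Ht_sym2 {p q : Fin 2 → RatFunc k} {m n : ℕ} (hp : Ht p m) (hq : Ht q n) :
    Ht (sym2 p q) (m + n) := by
  obtain ⟨v, hv, hd, c, hc, hw⟩ := hp
  obtain ⟨v', hv', hd', c', hc', hw'⟩ := hq
  refine ⟨sym2 v v', hv.sym2 hv', hd.sym2 hd', c * c', mul_ne_zero hc hc', ?_⟩
  intro i
  fin_cases i
  · simp only [sym2, Fin.zero_eta, Matrix.cons_val_zero, hw, hw', map_mul]
    ring
  · simp only [sym2, Fin.mk_one, Matrix.cons_val_one, Matrix.cons_val_zero, hw, hw', map_mul,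
      map_add]
    ring
  · simp only [sym2, Fin.reduceFinMk, Matrix.cons_val, hw, hw', map_mul]
    ring

theorem Ht_phi (b2 b4 b6 b8 : k) (hrel : 4 * b8 = b2 * b6 - b4 ^ 2)
    (hΔ : -b2 ^ 2 * b8 - 8 * b4 ^ 3 - 27 * b6 ^ 2 + 9 * b2 * b4 * b6 ≠ 0)
    {w : Fin 3 → RatFunc k} {N : ℕ} (h : Ht w N) :
    Ht (phi (RatFunc.C b2) (RatFunc.C b4) (RatFunc.C b6) (RatFunc.C b8) w) (2 * N) := by
  obtain ⟨v, hv, hd, c, hc, hw⟩ := h
  refine ⟨phi (C b2) (C b4) (C b6) (C b8) v, hv.phi b2 b4 b6 b8 hrel hΔ,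
    hd.phi b2 b4 b6 b8 hrel hΔ, c ^ 2, pow_ne_zero 2 hc, ?_⟩
  intro i
  fin_cases i
  · simp only [phi, Fin.zero_eta, Matrix.cons_val_zero, hw, map_mul, map_sub, map_pow,
      RatFunc.algebraMap_C]
    ring
  · simp only [phi, Fin.mk_one, Matrix.cons_val_one, Matrix.cons_val_zero, hw, map_mul, map_add,
      map_pow, RatFunc.algebraMap_C, map_ofNat]
    ring
  · simp only [phi, Fin.reduceFinMk, Matrix.cons_val, hw, map_mul, map_sub, map_pow, map_ofNat]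
    ring

theorem Ht_pow {a b : RatFunc k} {N : ℕ} (h : Ht ![a, b] N) (m : ℕ) :
    Ht ![a ^ m, b ^ m] (m * N) := by
  obtain ⟨v, hv, hd, c, hc, hw⟩ := h
  refine ⟨![v 0 ^ m, v 1 ^ m], hv.pow m, hd.pow m, c ^ m, pow_ne_zero m hc, ?_⟩
  have h0 : a = c * ι (v 0) := hw 0
  have h1 : b = c * ι (v 1) := hw 1
  intro i
  fin_cases i
  · simp [h0, mul_pow]
  · simp [h1, mul_pow]

theorem Ht_X : Ht ![(RatFunc.X : RatFunc k), 1] 1 := by
  have := Ht_of_poly (k := k) (a := X) (b := 1) (N := 1) isCoprime_one_right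
    natDegree_X_le (by simp) (Or.inl (by simp))
  simpa using this

theorem Ht_infty : Ht ![(1 : RatFunc k), 0] 0 := by
  have := Ht_of_poly (k := k) (a := 1) (b := 0) (N := 0) isCoprime_one_left
    (by simp) (by simp) (Or.inl (by simp))
  simpa using this

theorem Ht_zero_iff (r : RatFunc k) : Ht ![r, 1] 0 ↔ ∃ c : k, r = RatFunc.C c := by
  constructor
  · rintro ⟨v, -, hd, c, hc, hw⟩
    have h0 : r = c * ι (v 0) := hw 0
    have h1 : 1 = c * ι (v 1) := hw 1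
    have e0 : v 0 = C ((v 0).coeff 0) := eq_C_of_natDegree_le_zero (hd.1 0)
    have e1 : v 1 = C ((v 1).coeff 0) := eq_C_of_natDegree_le_zero (hd.1 1)
    rw [e0, RatFunc.algebraMap_C] at h0
    rw [e1, RatFunc.algebraMap_C] at h1
    have hne : RatFunc.C ((v 1).coeff 0) ≠ 0 := right_ne_zero_of_mul (h1 ▸ one_ne_zero)
    refine ⟨(v 0).coeff 0 / (v 1).coeff 0, ?_⟩
    rw [map_div₀, h0, eq_div_iff hne]
    linear_combination (-RatFunc.C ((v 0).coeff 0)) * h1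
  · rintro ⟨c, rfl⟩
    have := Ht_of_poly (k := k) (a := C c) (b := 1) (N := 0) isCoprime_one_right
      (by simp) (by simp) (Or.inr (by simp))
    simpa using this

theorem parallelogram (b2 b4 b6 b8 : k) (hrel : 4 * b8 = b2 * b6 - b4 ^ 2)
    (hΔ : -b2 ^ 2 * b8 - 8 * b4 ^ 3 - 27 * b6 ^ 2 + 9 * b2 * b4 * b6 ≠ 0)
    {p₁ p₂ p₃ p₄ : Fin 2 → RatFunc k} {n₁ n₂ n₃ n₄ : ℕ}
    (h₁ : Ht p₁ n₁) (h₂ : Ht p₂ n₂) (h₃ : Ht p₃ n₃) (h₄ : Ht p₄ n₄)
    (hrel' : ∃ c : RatFunc k, c ≠ 0 ∧ sym2 p₃ p₄ =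
      c • phi (RatFunc.C b2) (RatFunc.C b4) (RatFunc.C b6) (RatFunc.C b8) (sym2 p₁ p₂)) :
    n₃ + n₄ = 2 * n₁ + 2 * n₂ := by
  obtain ⟨c, hc, h⟩ := hrel'
  have hA := Ht_sym2 h₃ h₄
  have hB := (Ht_phi b2 b4 b6 b8 hrel hΔ (Ht_sym2 h₁ h₂)).smul hc
  rw [← h] at hB
  rw [hA.unique hB]
  ring

end Fermat.Agent.S52.CH
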