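import Fermat.Agent.S52.CH.Generic

/-!
# S52 / CH-F4 : Cayley-Hamilton for Frobenius on all points
-/

set_option autoImplicit false

namespace Fermat.Agent.S52.CH

open WeierstrassCurve WeierstrassCurve.Affine Polynomial

variable {k : Type*} [Field k] [Fintype k] (A B : k)

/-- the endomorphism `F² - aF + q` of `E(L)` -/
noncomputable def al (L : Type*) [Field L] [DecidableEq L] [Algebra k L]
    (P : ((EW A B)⁄L).Point) : ((EW A B)⁄L).Point :=
  Fr A B L (Fr A B L P) - ((Fintype.card k : ℤ) + 1 - Nat.card (EW A B).toAffine.Point) • Fr A B L P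
    + (Fintype.card k : ℤ) • P

variable {A B}

lemma al_add {L : Type*} [Field L] [DecidableEq L] [Algebra k L] (P Q : ((EW A B)⁄L).Point) :
    al A B L (P + Q) = al A B L P + al A B L Q := by
  simp only [al, map_add, smul_add]
  abel

lemma al_sub {L : Type*} [Field L] [DecidableEq L] [Algebra k L] (P Q : ((EW A B)⁄L).Point) :
    al A B L (P - Q) = al A B L P - al A B L Q := by
  simp only [al, map_sub, smul_sub]
  abel

lemma map_al {L L' : Type*} [Field L] [DecidableEq L] [Algebra k L] [Field L'] [DecidableEq L']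
    [Algebra k L'] (ψ : L →ₐ[k] L') (P : ((EW A B)⁄L).Point) :
    Point.map (W' := EW A B) ψ (al A B L P) = al A B L' (Point.map (W' := EW A B) ψ P) := by
  simp only [al, map_add, map_sub, map_zsmul, map_Fr]

variable {Ω : Type*} [Field Ω] [DecidableEq Ω] [Algebra k Ω]

lemma eq_of_equation {x y : Ω} (h : ((EW A B)⁄Ω).Equation x y) :
    y ^ 2 = x ^ 3 + algebraMap k Ω A * x + algebraMap k Ω B := by
  rw [equation_iff] at h
  simpa using h

/-- CH at points with transcendental `x`-coordinate -/
lemma al_generic (h2 : (2 : k) ≠ 0) (hΔ : 4 * A ^ 3 + 27 * B ^ 2 ≠ 0) {x y : Ω}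
    (h : ((EW A B)⁄Ω).Nonsingular x y) (htr : Transcendental k x) :
    al A B Ω (Point.some x y h) + al A B Ω (Point.some x y h) = 0 := by
  have hη : Point.map (W' := EW A B) (liftK x y htr (eq_of_equation h.1)) (eta A B h2 hΔ)
      = Point.some x y h := by
    rw [eta, Point.map_some, Point.some.injEq]
    exact ⟨liftK_xK _ _ _ _, liftK_y0 _ _ _ _⟩
  rw [← hη, ← map_al, ← map_add]
  have := generic_CH h2 hΔ
  simp only at this
  change al A B (KE A B) (eta A B h2 hΔ) + al A B (KE A B) (eta A B h2 hΔ) = 0 at this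
  rw [this, map_zero]

/-- the subgroup of points with algebraic coordinates -/
noncomputable def algPts (A B : k) (Ω : Type*) [Field Ω] [DecidableEq Ω] [Algebra k Ω] :
    AddSubgroup ((EW A B)⁄Ω).Point :=
  letI : DecidableEq (algebraicClosure k Ω) := Classical.decEq _
  (Point.map (W' := EW A B) (algebraicClosure k Ω).val).range

lemma mem_algPts_of_isAlgebraic {x y : Ω} (h : ((EW A B)⁄Ω).Nonsingular x y)
    (hx : IsAlgebraic k x) : Point.some x y h ∈ algPts A B Ω := by
  letI : DecidableEq (algebraicClosure k Ω) := Classical.decEq _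
  have hy : IsAlgebraic k y := by
    apply IsAlgebraic.of_pow (n := 2) (by norm_num)
    rw [eq_of_equation h.1]
    exact ((hx.pow 3).add ((isAlgebraic_algebraMap A).mul hx)).add (isAlgebraic_algebraMap B)
  let x' : algebraicClosure k Ω := ⟨x, mem_algebraicClosure_iff.mpr hx⟩
  let y' : algebraicClosure k Ω := ⟨y, mem_algebraicClosure_iff.mpr hy⟩
  have h' : ((EW A B)⁄(algebraicClosure k Ω)).Nonsingular x' y' :=
    ((EW A B).baseChange_nonsingular (algebraicClosure k Ω).val.injective x' y').mp h
  exact ⟨Point.some x' y' h', rfl⟩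

lemma isAlgebraic_of_mem_algPts {x y : Ω} {h : ((EW A B)⁄Ω).Nonsingular x y}
    (hm : Point.some x y h ∈ algPts A B Ω) : IsAlgebraic k x := by
  letI : DecidableEq (algebraicClosure k Ω) := Classical.decEq _
  obtain ⟨P, hP⟩ := hm
  rcases P with _ | ⟨x', y', h'⟩
  · exact absurd hP.symm (Point.some_ne_zero _)
  · rw [Point.map_some, Point.some.injEq] at hP
    rw [← hP.1]
    exact mem_algebraicClosure_iff.mp x'.2

/-- **Cayley-Hamilton for Frobenius** (up to the harmless factor 2). -/
theorem frobenius_CH [IsAlgClosed Ω] (h2 : (2 : k) ≠ 0) (hΔ : 4 * A ^ 3 + 27 * B ^ 2 ≠ 0)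
    (τ : Ω) (hτ : Transcendental k τ) (P : ((EW A B)⁄Ω).Point) :
    al A B Ω P + al A B Ω P = 0 := by
  have hΔ' : ((EW A B)⁄Ω).Δ ≠ 0 := by
    change ((EW A B).map (algebraMap k Ω)).Δ ≠ 0
    rw [WeierstrassCurve.map_Δ]
    exact fun h => EW_Δ_ne_zero h2 hΔ ((algebraMap k Ω).injective (by rw [h, map_zero]))
  -- a generic point
  obtain ⟨y', hy'⟩ := IsAlgClosed.exists_pow_nat_eq
    (τ ^ 3 + algebraMap k Ω A * τ + algebraMap k Ω B) (n := 2) (by norm_num)
  have hns : ((EW A B)⁄Ω).Nonsingular τ y' := by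
    rw [← equation_iff_nonsingular_of_Δ_ne_zero hΔ', equation_iff]
    simp [hy']
  set η' : ((EW A B)⁄Ω).Point := Point.some τ y' hns with hη'
  have hgen : al A B Ω η' + al A B Ω η' = 0 := al_generic h2 hΔ hns hτ
  by_cases hP : P ∈ algPts A B Ω
  · -- `P + η'` is generic
    have hsum : P + η' ∉ algPts A B Ω := by
      intro hs
      have : η' ∈ algPts A B Ω := by
        have := (algPts A B Ω).sub_mem hs hP
        simpa using this
      exact hτ (isAlgebraic_of_mem_algPts this)
    have hgen2 : al A B Ω (P + η') + al A B Ω (P + η') = 0 := by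
      rcases hQ : P + η' with _ | ⟨x, y, h⟩
      · exact absurd (hQ ▸ (algPts A B Ω).zero_mem) hsum
      · apply al_generic h2 hΔ h
        intro halg
        exact hsum (hQ ▸ mem_algPts_of_isAlgebraic h halg)
    have e : al A B Ω P = al A B Ω (P + η') - al A B Ω η' := by
      rw [← al_sub]; simp
    rw [e]
    have : al A B Ω (P + η') - al A B Ω η' + (al A B Ω (P + η') - al A B Ω η')
        = (al A B Ω (P + η') + al A B Ω (P + η')) - (al A B Ω η' + al A B Ω η') := by abel
    rw [this, hgen, hgen2, sub_zero]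
  · rcases P with _ | ⟨x, y, h⟩
    · exact absurd (algPts A B Ω).zero_mem hP
    · apply al_generic h2 hΔ h
      intro halg
      exact hP (mem_algPts_of_isAlgebraic h halg)

end Fermat.Agent.S52.CH
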