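import Fermat.Agent.S52.CH.Defs

/-!
# S52 / CH-D : Manin's lemma  `deg x(Frob η - η) = #E(F_q)`
-/

set_option autoImplicit false

namespace Fermat.Agent.S52.CH

open Polynomial

section Manin

variable {k : Type*} [Field k] [Fintype k]

theorem manin_prod_X_sub_C : ∏ c : k, (X - C c) = (X ^ Fintype.card k - X : k[X]) := by
  have hdeg : (X ^ Fintype.card k - X : k[X]).natDegree = Fintype.card k :=
    FiniteField.X_pow_card_sub_X_natDegree_eq _ Fintype.one_lt_card
  have hmonic : (X ^ Fintype.card k - X : k[X]).Monic := by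
    apply monic_X_pow_sub
    rw [degree_X]
    exact_mod_cast Fintype.one_lt_card
  have h := prod_multiset_X_sub_C_of_monic_of_roots_card_eq hmonic
    (by rw [FiniteField.roots_X_pow_card_sub_X, hdeg]; simp)
  rw [FiniteField.roots_X_pow_card_sub_X] at h
  exact h

omit [Fintype k] in
theorem manin_ringChar_ne_two (h2 : (2 : k) ≠ 0) : ringChar k ≠ 2 := by
  intro h
  apply h2
  have := ringChar.Nat.cast_ringChar (R := k)
  rw [h] at this
  exact_mod_cast this

theorem manin_card_eq (h2 : (2 : k) ≠ 0) : ∃ m : ℕ, 1 ≤ m ∧ Fintype.card k = 2 * m + 1 := by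
  have h1 := FiniteField.odd_card_of_char_ne_two (manin_ringChar_ne_two h2)
  have h3 : 1 < Fintype.card k := Fintype.one_lt_card
  exact ⟨Fintype.card k / 2, by omega, by omega⟩

/-- trichotomy for the number of square roots -/
theorem manin_sqrts (h2 : (2 : k) ≠ 0) {m : ℕ} (hm : Fintype.card k = 2 * m + 1) (a : k) :
    (a = 0 ∧ Nat.card {y : k // y ^ 2 = a} = 1) ∨
    (a ≠ 0 ∧ a ^ m = 1 ∧ Nat.card {y : k // y ^ 2 = a} = 2) ∨
    (a ^ m = -1 ∧ Nat.card {y : k // y ^ 2 = a} = 0) := by
  classical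
  have hF := manin_ringChar_ne_two h2
  have h1 := quadraticChar_card_sqrts hF a
  have h3 := quadraticChar_eq_pow_of_char_ne_two' hF a
  have hq : Fintype.card k / 2 = m := by omega
  rw [hq] at h3
  have hcard : Nat.card {y : k // y ^ 2 = a} = ({x : k | x ^ 2 = a}.toFinset).card := by
    rw [Nat.card_eq_fintype_card, Set.toFinset_card]
    rfl
  rw [hcard]
  by_cases ha : a = 0
  · left
    refine ⟨ha, ?_⟩
    rw [(quadraticChar_eq_zero_iff).mpr ha] at h1
    exact_mod_cast h1
  · right
    rcases quadraticChar_dichotomy ha with h | h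
    · left
      rw [h] at h1 h3
      refine ⟨ha, by simpa using h3.symm, by exact_mod_cast h1⟩
    · right
      rw [h] at h1 h3
      refine ⟨by simpa using h3.symm, ?_⟩
      have h4 : ((({x : k | x ^ 2 = a}.toFinset).card : ℕ) : ℤ) = 0 := by rw [h1]; norm_num
      exact_mod_cast h4

/-- the point count -/
theorem manin_card_point (h2 : (2 : k) ≠ 0) (A B : k) (hΔ : 4 * A ^ 3 + 27 * B ^ 2 ≠ 0) :
    Nat.card (⟨0, 0, 0, A, B⟩ : WeierstrassCurve k).toAffine.Point =
      1 + ∑ c : k, Nat.card {y : k // y ^ 2 = c ^ 3 + A * c + B} := by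
  classical
  set W : WeierstrassCurve k := ⟨0, 0, 0, A, B⟩ with hW
  have hWΔ : W.Δ ≠ 0 := by
    have : W.Δ = -(2 ^ 4) * (4 * A ^ 3 + 27 * B ^ 2) := by
      simp only [hW, WeierstrassCurve.Δ, WeierstrassCurve.b₂, WeierstrassCurve.b₄,
        WeierstrassCurve.b₆, WeierstrassCurve.b₈]
      ring
    rw [this]
    exact mul_ne_zero (neg_ne_zero.mpr (pow_ne_zero _ h2)) hΔ
  have heq : ∀ x y : k, W.toAffine.Equation x y ↔ y ^ 2 = x ^ 3 + A * x + B := by
    intro x y
    rw [WeierstrassCurve.Affine.equation_iff]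
    simp [hW]
  let e : W.toAffine.Point ≃ Option (Σ c : k, {y : k // y ^ 2 = c ^ 3 + A * c + B}) :=
    { toFun := fun P => match P with
        | .zero => none
        | .some x y h => some ⟨x, y, (heq x y).mp h.1⟩
      invFun := fun o => match o with
        | none => .zero
        | some ⟨x, y, h⟩ => .some x y
            ((WeierstrassCurve.Affine.equation_iff_nonsingular_of_Δ_ne_zero hWΔ).mp
              ((heq x y).mpr h))
      left_inv := fun P => by cases P <;> rfl
      right_inv := fun o => by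
        rcases o with _ | ⟨x, y, h⟩ <;> rfl }
  rw [Nat.card_congr e, Finite.card_option, Nat.card_sigma, add_comm]

/-- degree of the numerator -/
theorem manin_natDegree_num {m : ℕ} (hm1 : 1 ≤ m) (hm : Fintype.card k = 2 * m + 1) (A B : k) :
    ((X ^ 3 + C A * X + C B) * ((X ^ 3 + C A * X + C B) ^ m + 1) ^ 2
      - (X ^ Fintype.card k + X) * (X ^ Fintype.card k - X) ^ 2 : k[X]).natDegree
      = 2 * Fintype.card k + 1 := by
  have hfq : (X ^ 3 + C A * X + C B : k[X]) ^ Fintype.card k
      = (X ^ Fintype.card k) ^ 3 + C A * X ^ Fintype.card k + C B := by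
    rw [← FiniteField.expand_card]
    simp
  generalize Fintype.card k = q at *
  have key : (X ^ 3 + C A * X + C B) * ((X ^ 3 + C A * X + C B) ^ m + 1) ^ 2
      - (X ^ q + X) * (X ^ q - X) ^ 2 = X ^ (2 * q + 1) + (X ^ (q + 2) - X ^ 3 + C A * X ^ q + C B
        + 2 * (X ^ 3 + C A * X + C B) ^ (m + 1) + (X ^ 3 + C A * X + C B) : k[X]) := by
    have h1 : (X ^ 3 + C A * X + C B : k[X]) * ((X ^ 3 + C A * X + C B) ^ m + 1) ^ 2
        = (X ^ 3 + C A * X + C B) ^ q + 2 * (X ^ 3 + C A * X + C B) ^ (m + 1)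
          + (X ^ 3 + C A * X + C B) := by
      rw [hm]; ring
    rw [h1, hfq]; ring
  rw [key]
  have hle : (X ^ (q + 2) - X ^ 3 + C A * X ^ q + C B
        + 2 * (X ^ 3 + C A * X + C B) ^ (m + 1) + (X ^ 3 + C A * X + C B) : k[X]).natDegree
        ≤ 2 * q := by
    compute_degree
    all_goals omega
  rw [natDegree_add_eq_left_of_natDegree_lt, natDegree_X_pow]
  rw [natDegree_X_pow]
  omega

omit [Fintype k] in
theorem manin_deriv_aux (f h E D : k[X]) (c : k) (hf : f.eval c = 0) (hD : D.eval c = 0)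
    (hh : h.eval c = 1) :
    (derivative (f * h ^ 2 - E * D ^ 2)).eval c = (derivative f).eval c := by
  simp [derivative_mul, derivative_pow, hf, hD, hh]

omit [Fintype k] in
theorem manin_eval_aux (f E D : k[X]) (c : k) (m : ℕ) (hD : D.eval c = 0)
    (hfm : (f.eval c) ^ m = 1) :
    (f * (f ^ m + 1) ^ 2 - E * D ^ 2).eval c = 2 ^ 2 * f.eval c := by
  simp only [eval_sub, eval_mul, eval_pow, eval_add, eval_one, hD, hfm]
  ring

omit [Fintype k] in
theorem manin_deriv_sq (w : k[X]) (c : k) : (derivative ((X - C c) ^ 2 * w)).eval c = 0 := by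
  simp [derivative_mul, derivative_pow]

omit [Fintype k] in
theorem manin_isCoprime_X_sub_C (v : k[X]) (c : k) (h : v.eval c ≠ 0) :
    IsCoprime v (X - C c) := by
  rw [isCoprime_comm, (irreducible_X_sub_C c).coprime_iff_not_dvd, dvd_iff_isRoot]
  exact h

/-- the polynomial core of Manin's lemma -/
theorem manin_poly (h2 : (2 : k) ≠ 0) (A B : k) (hΔ : 4 * A ^ 3 + 27 * B ^ 2 ≠ 0) {m : ℕ}
    (hm1 : 1 ≤ m) (hm : Fintype.card k = 2 * m + 1) :
    ∃ g v0 v1 : k[X], g ≠ 0 ∧ v1 ≠ 0 ∧
      (X ^ 3 + C A * X + C B) * ((X ^ 3 + C A * X + C B) ^ m + 1) ^ 2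
        - (X ^ Fintype.card k + X) * (X ^ Fintype.card k - X) ^ 2 = g * v0 ∧
      (X ^ Fintype.card k - X) ^ 2 = g * v1 ∧ IsCoprime v0 v1 ∧
      v0.natDegree = 1 + ∑ c : k, Nat.card {y : k // y ^ 2 = c ^ 3 + A * c + B} ∧
      v1.natDegree = ∑ c : k, Nat.card {y : k // y ^ 2 = c ^ 3 + A * c + B} := by
  classical
  have hdegnum := manin_natDegree_num hm1 hm A B
  set f : k[X] := X ^ 3 + C A * X + C B with hf
  set D : k[X] := X ^ Fintype.card k - X with hD
  set num : k[X] := f * (f ^ m + 1) ^ 2 - (X ^ Fintype.card k + X) * D ^ 2 with hnum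
  set e1 : k → ℕ := fun c => Nat.card {y : k // y ^ 2 = c ^ 3 + A * c + B} with he1
  have htri := fun c : k => manin_sqrts h2 hm (c ^ 3 + A * c + B)
  have hfev : ∀ c : k, f.eval c = c ^ 3 + A * c + B := by intro c; simp [hf]
  have hDev : ∀ c : k, D.eval c = 0 := by
    intro c; simp [hD, FiniteField.pow_card]
  have hDdvd : ∀ c : k, (X - C c) ∣ D := fun c => dvd_iff_isRoot.mpr (hDev c)
  have hle : ∀ c, e1 c ≤ 2 := by
    intro c
    rcases htri c with h | h | h
    · exact h.2.le.trans (by norm_num)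
    · exact h.2.2.le
    · exact h.2.le.trans (by norm_num)
  set g : k[X] := ∏ c : k, (X - C c) ^ (2 - e1 c) with hg
  set v1 : k[X] := ∏ c : k, (X - C c) ^ (e1 c) with hv1
  have hgm : g.Monic := monic_prod_of_monic _ _ fun c _ => (monic_X_sub_C c).pow _
  have hv1m : v1.Monic := monic_prod_of_monic _ _ fun c _ => (monic_X_sub_C c).pow _
  have hgv1 : D ^ 2 = g * v1 := by
    rw [hg, hv1, ← Finset.prod_mul_distrib, hD, ← manin_prod_X_sub_C, ← Finset.prod_pow]
    refine Finset.prod_congr rfl fun c _ => ?_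
    rw [← pow_add, Nat.sub_add_cancel (hle c)]
  have hdvd : g ∣ num := by
    refine Finset.prod_dvd_of_coprime ?_ ?_
    · intro c _ c' _ hcc'
      exact (pairwise_coprime_X_sub_C (Function.injective_id) hcc').pow
    · intro c _
      rcases htri c with h | h | h
      · have h1 : e1 c = 1 := h.2
        rw [h1]
        have hfd : (X - C c) ∣ f := dvd_iff_isRoot.mpr (by rw [IsRoot, hfev, h.1])
        simp only [Nat.add_one_sub_one, pow_one]
        exact dvd_sub (hfd.mul_right _) (((hDdvd c).trans (dvd_pow_self _ two_ne_zero)).mul_left _)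
      · have h1 : e1 c = 2 := h.2.2
        rw [h1]
        simp
      · have h1 : e1 c = 0 := h.2
        rw [h1]
        have hhd : (X - C c) ∣ f ^ m + 1 := dvd_iff_isRoot.mpr (by
          rw [IsRoot, eval_add, eval_pow, hfev, h.1]; simp)
        exact dvd_sub ((pow_dvd_pow_of_dvd hhd 2).mul_left _)
          ((pow_dvd_pow_of_dvd (hDdvd c) 2).mul_left _)
  obtain ⟨v0, hv0⟩ := hdvd
  have hnum0 : num ≠ 0 := by
    intro h
    rw [h, natDegree_zero] at hdegnum
    omega
  have hv00 : v0 ≠ 0 := by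
    rintro rfl
    exact hnum0 (by rw [hv0, mul_zero])
  have hcop : IsCoprime v0 v1 := by
    refine IsCoprime.prod_right fun c _ => ?_
    rcases htri c with h | h | h
    · refine IsCoprime.pow_right (manin_isCoprime_X_sub_C _ _ fun hv => ?_)
      have h1 : e1 c = 1 := h.2
      have hgd : (X - C c) ∣ g := by
        have := Finset.dvd_prod_of_mem (fun c : k => (X - C c) ^ (2 - e1 c)) (Finset.mem_univ c)
        simpa [h1] using this
      obtain ⟨g1, hg1⟩ := hgd
      obtain ⟨w1, hw1⟩ := dvd_iff_isRoot.mpr hv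
      have hsq : num = (X - C c) ^ 2 * (g1 * w1) := by rw [hv0, hg1, hw1]; ring
      have hd0 : (derivative num).eval c = 0 := by rw [hsq]; exact manin_deriv_sq _ _
      have hd1 : (derivative num).eval c = (derivative f).eval c := by
        rw [hnum]
        refine manin_deriv_aux _ _ _ _ _ (by rw [hfev, h.1]) (hDev c) ?_
        rw [eval_add, eval_pow, hfev, h.1, zero_pow (by omega)]
        simp
      have hd2 : (derivative f).eval c = 3 * c ^ 2 + A := by
        simp [hf]
        left; norm_num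
      rw [hd1, hd2] at hd0
      have hA : A = -3 * c ^ 2 := by linear_combination hd0
      have hB : B = 2 * c ^ 3 := by linear_combination h.1 - c * hd0
      apply hΔ
      rw [hA, hB]; ring
    · refine IsCoprime.pow_right (manin_isCoprime_X_sub_C _ _ fun hv => ?_)
      have hev : num.eval c = 0 := by rw [hv0, eval_mul, hv, mul_zero]
      rw [hnum, manin_eval_aux _ _ _ _ _ (hDev c) (by rw [hfev]; exact h.2.1), hfev] at hev
      rcases mul_eq_zero.mp hev with hev | hev
      · exact pow_ne_zero 2 h2 hev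
      · exact h.1 hev
    · have h1 : e1 c = 0 := h.2
      rw [h1, pow_zero]
      exact isCoprime_one_right
  have hdv1 : v1.natDegree = ∑ c : k, e1 c := by
    rw [hv1, natDegree_prod_of_monic _ _ fun c _ => (monic_X_sub_C c).pow _]
    refine Finset.sum_congr rfl fun c _ => ?_
    rw [natDegree_pow, natDegree_X_sub_C, mul_one]
  have hdD : (D ^ 2).natDegree = 2 * Fintype.card k := by
    rw [natDegree_pow, hD, FiniteField.X_pow_card_sub_X_natDegree_eq _ Fintype.one_lt_card]
  have hd1 : g.natDegree + v1.natDegree = 2 * Fintype.card k := by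
    rw [← hdD, hgv1, natDegree_mul hgm.ne_zero hv1m.ne_zero]
  have hd2 : g.natDegree + v0.natDegree = 2 * Fintype.card k + 1 := by
    rw [← hdegnum, hv0, natDegree_mul hgm.ne_zero hv00]
  refine ⟨g, v0, v1, hgm.ne_zero, hv1m.ne_zero, hv0, hgv1, hcop, ?_, hdv1⟩
  rw [← hdv1]
  omega

/-- **Manin's lemma**: the `x`-coordinate of `Frob η - η` (`η` the generic point of
`y² = x³ + A x + B` twisted by `f`) has degree `#E(F_q)`. -/
theorem manin (h2 : (2 : k) ≠ 0) (A B : k) (hΔ : 4 * A ^ 3 + 27 * B ^ 2 ≠ 0) :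
    Ht ![((RatFunc.X : RatFunc k) ^ 3 + RatFunc.C A * RatFunc.X + RatFunc.C B) *
          (((RatFunc.X : RatFunc k) ^ 3 + RatFunc.C A * RatFunc.X + RatFunc.C B) ^ ((Fintype.card k - 1) / 2) + 1) ^ 2 / (RatFunc.X ^ Fintype.card k - RatFunc.X) ^ 2
          - RatFunc.X ^ Fintype.card k - RatFunc.X, 1]
      (Nat.card (⟨0, 0, 0, A, B⟩ : WeierstrassCurve k).toAffine.Point) := by
  obtain ⟨m, hm1, hm⟩ := manin_card_eq h2
  obtain ⟨g, v0, v1, hg, hv1, hnum, hden, hcop, hd0, hd1⟩ := manin_poly h2 A B hΔ hm1 hm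
  rw [manin_card_point h2 A B hΔ, ← hd0]
  have hm' : (Fintype.card k - 1) / 2 = m := by omega
  rw [hm']
  have hgne : algebraMap k[X] (RatFunc k) g ≠ 0 := RatFunc.algebraMap_ne_zero hg
  have hv1ne : algebraMap k[X] (RatFunc k) v1 ≠ 0 := RatFunc.algebraMap_ne_zero hv1
  refine ⟨![v0, v1], ?_, ?_, (algebraMap k[X] (RatFunc k) v1)⁻¹, inv_ne_zero hv1ne, ?_⟩
  · obtain ⟨a, b, hab⟩ := hcop
    rw [Prim, Ideal.eq_top_iff_one, ← hab]
    exact Ideal.add_mem _ (Ideal.mul_mem_left _ _ (Ideal.subset_span ⟨0, rfl⟩))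
      (Ideal.mul_mem_left _ _ (Ideal.subset_span ⟨1, rfl⟩))
  · refine ⟨fun i => ?_, 0, ?_⟩
    · fin_cases i
      · exact le_rfl
      · show v1.natDegree ≤ v0.natDegree
        omega
    · show v0.coeff v0.natDegree ≠ 0
      rw [coeff_natDegree, leadingCoeff_ne_zero]
      rintro rfl
      rw [natDegree_zero] at hd0
      omega
  · have hnum' := congrArg (algebraMap k[X] (RatFunc k)) hnum
    have hden' := congrArg (algebraMap k[X] (RatFunc k)) hden
    simp only [map_sub, map_mul, map_add, map_pow, map_one, RatFunc.algebraMap_X,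
      RatFunc.algebraMap_C] at hnum' hden'
    rw [Fin.forall_fin_two]
    refine ⟨?_, ?_⟩
    · simp only [Matrix.cons_val_zero]
      generalize (RatFunc.X : RatFunc k) ^ 3 + RatFunc.C A * RatFunc.X + RatFunc.C B = F
        at hnum' ⊢
      generalize (RatFunc.X : RatFunc k) ^ Fintype.card k = Y at hnum' hden' ⊢
      have e1 : F * (F ^ m + 1) ^ 2 = algebraMap k[X] (RatFunc k) g * algebraMap k[X] (RatFunc k) v0
          + (Y + RatFunc.X) * (algebraMap k[X] (RatFunc k) g * algebraMap k[X] (RatFunc k) v1) := by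
        rw [← hden']; linear_combination hnum'
      rw [hden', e1]
      field_simp
      ring
    · simp only [Matrix.cons_val_one, Matrix.cons_val_zero]
      rw [inv_mul_cancel₀ hv1ne]

end Manin

end Fermat.Agent.S52.CH
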