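import Mathlib

/-!
# S52 / CH-E : the exact parallelogram law forces a quadratic form
-/

set_option autoImplicit false

namespace Fermat.Agent.S52.CH

section Quad

variable {G : Type*} [AddCommGroup G] (d : G → ℤ)

theorem quad_zero (h : ∀ P Q, d (P + Q) + d (P - Q) = 2 * d P + 2 * d Q) : d 0 = 0 := by
  have := h 0 0
  simp only [add_zero, sub_zero] at this
  linarith

theorem quad_cube (h : ∀ P Q, d (P + Q) + d (P - Q) = 2 * d P + 2 * d Q) (P Q S : G) :
    d (P + Q + S) = d (P + Q) + d (P + S) + d (Q + S) - d P - d Q - d S := by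
  have a := h (P + Q) S
  have c := h (P + S) Q
  have f := h P (Q - S)
  have g := h Q S
  have e1 : P + S + Q = P + Q + S := by abel
  have e2 : P + (Q - S) = P + Q - S := by abel
  have e3 : P - (Q - S) = P + S - Q := by abel
  rw [e1] at c
  rw [e2, e3] at f
  linarith

theorem quad_line (h : ∀ P Q, d (P + Q) + d (P - Q) = 2 * d P + 2 * d Q) (P R : G) (u : ℤ) :
    d (u • P + R) = u ^ 2 * d P + u * (d (P + R) - d P - d R) + d R := by
  have step : ∀ n : ℤ, d ((n + 1) • P + R) + d ((n - 1) • P + R) = 2 * d (n • P + R) + 2 * d P := by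
    intro n
    have := h (n • P + R) P
    have e1 : n • P + R + P = (n + 1) • P + R := by rw [add_smul, one_smul]; abel
    have e2 : n • P + R - P = (n - 1) • P + R := by rw [sub_smul, one_smul]; abel
    rw [e1, e2] at this
    exact this
  have key : ∀ n : ℕ,
      (d ((n : ℤ) • P + R) = (n : ℤ) ^ 2 * d P + (n : ℤ) * (d (P + R) - d P - d R) + d R ∧
        d (((n : ℤ) + 1) • P + R) =
          ((n : ℤ) + 1) ^ 2 * d P + ((n : ℤ) + 1) * (d (P + R) - d P - d R) + d R) ∧
      (d ((-(n : ℤ)) • P + R) = (-(n : ℤ)) ^ 2 * d P + (-(n : ℤ)) * (d (P + R) - d P - d R) + d R ∧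
        d ((-(n : ℤ) + 1) • P + R) =
          (-(n : ℤ) + 1) ^ 2 * d P + (-(n : ℤ) + 1) * (d (P + R) - d P - d R) + d R) := by
    intro n
    induction n with
    | zero => simp; ring
    | succ n ih =>
      obtain ⟨⟨a1, a2⟩, ⟨b1, b2⟩⟩ := ih
      refine ⟨⟨?_, ?_⟩, ⟨?_, ?_⟩⟩
      · push_cast
        exact a2
      · have := step ((n : ℤ) + 1)
        have e : ((n : ℤ) + 1 - 1) = n := by ring
        rw [e, a1, a2] at this
        push_cast
        linarith
      · have := step (-(n : ℤ))
        rw [b1, b2] at this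
        have e : (-((n + 1 : ℕ) : ℤ)) = -(n : ℤ) - 1 := by push_cast; ring
        rw [e]
        linarith
      · have e : (-((n + 1 : ℕ) : ℤ) + 1) = -(n : ℤ) := by push_cast; ring
        rw [e]
        exact b1
  obtain ⟨n, rfl | rfl⟩ := u.eq_nat_or_neg
  · exact (key n).1.1
  · exact (key n).2.1

theorem quad_of_parallelogram (h : ∀ P Q, d (P + Q) + d (P - Q) = 2 * d P + 2 * d Q)
    (P Q S : G) (u v w : ℤ) :
    d (u • P + v • Q + w • S) = u ^ 2 * d P + v ^ 2 * d Q + w ^ 2 * d S +
      u * v * (d (P + Q) - d P - d Q) + u * w * (d (P + S) - d P - d S) +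
      v * w * (d (Q + S) - d Q - d S) := by
  have h0 := quad_zero d h
  have l1 := quad_line d h P (v • Q + w • S) u
  have l2 := quad_line d h Q (w • S) v
  have l3 := quad_line d h S 0 w
  have l4 := quad_line d h S Q w
  have l5 := quad_line d h Q (P + w • S) v
  have l6 := quad_line d h S P w
  have l7 := quad_line d h S (Q + P) w
  have l8 := quad_cube d h S Q P
  have e1 : u • P + (v • Q + w • S) = u • P + v • Q + w • S := by abel
  have e2 : P + (v • Q + w • S) = v • Q + (P + w • S) := by abel
  have e3 : Q + w • S = w • S + Q := by abel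
  have e4 : P + w • S = w • S + P := by abel
  have e5 : Q + (w • S + P) = w • S + (Q + P) := by abel
  have e6 : S + (Q + P) = S + Q + P := by abel
  have e7 : S + Q = Q + S := by abel
  have e8 : S + P = P + S := by abel
  have e9 : Q + P = P + Q := by abel
  rw [e1, e2, l5] at l1
  rw [e3] at l2
  rw [add_zero, add_zero, h0] at l3
  rw [e4, e5] at l1
  rw [e6, l8] at l7
  rw [l7, l6, l2, l4, l3] at l1
  rw [l1, e7, e8, e9]
  ring

end Quad

end Fermat.Agent.S52.CH
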