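import Fermat.Agent.S52.CH.FieldK
import Fermat.Agent.S52.CH.AddSub
import Fermat.Agent.S52.CH.Height
import Fermat.Agent.S52.CH.Comp
import Fermat.Agent.S52.CH.Quad
import Fermat.Agent.S52.CH.Manin

/-!
# S52 / CH-F1 : odd points over `K`, their degree, the parallelogram law
-/

set_option autoImplicit false

namespace Fermat.Agent.S52.CH

open WeierstrassCurve WeierstrassCurve.Affine Polynomial

section general

lemma phi_map {L L' : Type*} [CommRing L] [CommRing L'] (f : L →+* L') (b2 b4 b6 b8 : L)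
    (v : Fin 3 → L) : phi (f b2) (f b4) (f b6) (f b8) (fun i => f (v i)) = fun i => f (phi b2 b4 b6 b8 v i) := by
  funext i
  fin_cases i <;> simp [phi, map_ofNat]

lemma sym2_map {L L' : Type*} [CommRing L] [CommRing L'] (f : L →+* L')
    (p q : Fin 2 → L) : sym2 (fun i => f (p i)) (fun i => f (q i)) = fun i => f (sym2 p q i) := by
  funext i
  fin_cases i <;> simp [sym2]

end general

variable {k : Type*} [Field k] (A B : k)

/-- the curve `y² = x³ + A x + B` -/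
abbrev EW : WeierstrassCurve.Affine k := ⟨0, 0, 0, A, B⟩

noncomputable instance : DecidableEq (KE A B) := Classical.decEq _

/-- points over `K` -/
abbrev PK := ((EW A B)⁄(KE A B)).Point

lemma xRep_map {L L' : Type*} [Field L] [Field L'] [DecidableEq L] [DecidableEq L']
    [Algebra k L] [Algebra k L']
    (ψ : L →ₐ[k] L') (P : ((EW A B)⁄L).Point) (i : Fin 2) :
    (Point.map (W' := EW A B) ψ P).xRep i = ψ (P.xRep i) := by
  rcases P with _ | ⟨x, y, h⟩
  · change (0 : ((EW A B)⁄L').Point).xRep i = ψ ((0 : ((EW A B)⁄L).Point).xRep i)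
    fin_cases i <;> simp
  · rw [Point.map_some]
    fin_cases i <;> simp

/-- `P` has `x`-coordinate in `k(X)`, of degree `N`. -/
def HasD (P : PK A B) (N : ℕ) : Prop :=
  ∃ ξ : Fin 2 → RatFunc k, (∀ i, P.xRep i = algebraMap (RatFunc k) (KE A B) (ξ i)) ∧ Ht ξ N

variable {A B}

lemma HasD.unique {P : PK A B} {N N' : ℕ} (h : HasD A B P N) (h' : HasD A B P N') : N = N' := by
  obtain ⟨ξ, hξ, hN⟩ := h
  obtain ⟨ξ', hξ', hN'⟩ := h'
  have : ξ = ξ' := by
    funext i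
    exact algebraMap_injective A B ((hξ i).symm.trans (hξ' i))
  subst this
  exact hN.unique hN'

variable (A B)

/-- the action of `σ` on points -/
noncomputable def Sg : PK A B →+ PK A B :=
  Point.map (W' := EW A B) ((sig A B).restrictScalars k)

/-- the group of odd points -/
noncomputable def M : AddSubgroup (PK A B) := (Sg A B + AddMonoidHom.id _).ker

variable {A B}

lemma mem_M {P : PK A B} : P ∈ M A B ↔ Sg A B P = -P := by
  rw [M, AddMonoidHom.mem_ker, AddMonoidHom.add_apply, AddMonoidHom.id_apply,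
    eq_neg_iff_add_eq_zero]

lemma odd_coords (h2 : (2 : k) ≠ 0) {x y : KE A B} {h : ((EW A B)⁄(KE A B)).Nonsingular x y}
    (hM : Point.some x y h ∈ M A B) :
    (∃ r : RatFunc k, x = algebraMap _ _ r) ∧ ∃ s : RatFunc k, y = algebraMap _ _ s * y0 A B := by
  rw [mem_M, Sg, Point.map_some, Point.neg_some, Point.some.injEq] at hM
  obtain ⟨hx, hy⟩ := hM
  refine ⟨sig_fixed A B h2 hx, sig_anti A B h2 ?_⟩
  rw [show sig A B y = ((sig A B).restrictScalars k) y from rfl, hy]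
  simp [negY]

lemma exists_HasD (h2 : (2 : k) ≠ 0) {P : PK A B} (hP : P ∈ M A B) : ∃ N, HasD A B P N := by
  rcases P with _ | ⟨x, y, h⟩
  · refine ⟨0, ![1, 0], fun i => ?_, Ht_infty⟩
    change (0 : PK A B).xRep i = _
    fin_cases i <;> simp
  · obtain ⟨⟨r, rfl⟩, -⟩ := odd_coords h2 hP
    obtain ⟨N, hN⟩ := Ht.exists_pair r
    refine ⟨N, ![r, 1], fun i => ?_, hN⟩
    fin_cases i <;> simp

lemma HasD_zero : HasD A B (0 : PK A B) 0 := by
  refine ⟨![1, 0], fun i => ?_, Ht_infty⟩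
  fin_cases i <;> simp

lemma HasD_some {r : RatFunc k} {y : KE A B}
    {h : ((EW A B)⁄(KE A B)).Nonsingular (algebraMap _ _ r) y} {N : ℕ} :
    HasD A B (Point.some _ y h) N ↔ Ht ![r, 1] N := by
  constructor
  · rintro ⟨ξ, hξ, hN⟩
    have h0 := hξ 0
    have h1 := hξ 1
    simp only [Point.xRep_some, Matrix.cons_val_zero, Matrix.cons_val_one] at h0 h1
    have e0 : ξ 0 = r := (algebraMap_injective A B h0).symm
    have e1 : ξ 1 = 1 := (algebraMap_injective A B (by rw [← h1, map_one]))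
    have : ξ = ![r, 1] := by
      funext i
      fin_cases i
      · exact e0
      · exact e1
    rwa [this] at hN
  · intro hN
    refine ⟨![r, 1], fun i => ?_, hN⟩
    fin_cases i <;> simp


lemma algebraMap_k (c : k) :
    algebraMap k (KE A B) c = algebraMap (RatFunc k) (KE A B) (RatFunc.C c) := by
  rw [IsScalarTower.algebraMap_apply k (RatFunc k) (KE A B), RatFunc.algebraMap_eq_C]

lemma EW_Δ : (EW A B).Δ = -16 * (4 * A ^ 3 + 27 * B ^ 2) := by
  simp only [WeierstrassCurve.Δ, WeierstrassCurve.b₂, WeierstrassCurve.b₄, WeierstrassCurve.b₆,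
    WeierstrassCurve.b₈]
  ring

lemma EW_Δ_ne_zero (h2 : (2 : k) ≠ 0) (hΔ : 4 * A ^ 3 + 27 * B ^ 2 ≠ 0) : (EW A B).Δ ≠ 0 := by
  rw [EW_Δ]
  have : (-16 : k) = -(2 ^ 4) := by norm_num
  rw [this]
  exact mul_ne_zero (neg_ne_zero.mpr (pow_ne_zero 4 h2)) hΔ

lemma HasD_parallelogram (h2 : (2 : k) ≠ 0) (hΔ : 4 * A ^ 3 + 27 * B ^ 2 ≠ 0) {P Q : PK A B}
    {n₁ n₂ n₃ n₄ : ℕ} (h₁ : HasD A B P n₁) (h₂ : HasD A B Q n₂) (h₃ : HasD A B (P + Q) n₃)
    (h₄ : HasD A B (P - Q) n₄) : n₃ + n₄ = 2 * n₁ + 2 * n₂ := by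
  obtain ⟨ξ₁, hξ₁, hN₁⟩ := h₁
  obtain ⟨ξ₂, hξ₂, hN₂⟩ := h₂
  obtain ⟨ξ₃, hξ₃, hN₃⟩ := h₃
  obtain ⟨ξ₄, hξ₄, hN₄⟩ := h₄
  refine parallelogram (EW A B).b₂ (EW A B).b₄ (EW A B).b₆ (EW A B).b₈ (EW A B).b_relation
    (EW_Δ_ne_zero h2 hΔ) hN₁ hN₂ hN₃ hN₄ ?_
  obtain ⟨c, hc, hrel⟩ := sym2x_add_sub ((EW A B)⁄(KE A B)) P Q
  set f := algebraMap (RatFunc k) (KE A B) with hf
  have e34 : (P + Q).sym2x (P - Q) = fun i => f (sym2 ξ₃ ξ₄ i) := by
    rw [← sym2_map]
    have a3 : (P + Q).xRep = fun i => f (ξ₃ i) := funext hξ₃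
    have a4 : (P - Q).xRep = fun i => f (ξ₄ i) := funext hξ₄
    rw [← a3, ← a4]
    rfl
  have e12 : phi ((EW A B)⁄(KE A B)).b₂ ((EW A B)⁄(KE A B)).b₄ ((EW A B)⁄(KE A B)).b₆
      ((EW A B)⁄(KE A B)).b₈ (P.sym2x Q) = fun i => f (phi (RatFunc.C (EW A B).b₂)
        (RatFunc.C (EW A B).b₄) (RatFunc.C (EW A B).b₆) (RatFunc.C (EW A B).b₈)
        (sym2 ξ₁ ξ₂) i) := by
    rw [← phi_map, ← sym2_map]
    have a1 : P.xRep = fun i => f (ξ₁ i) := funext hξ₁
    have a2 : Q.xRep = fun i => f (ξ₂ i) := funext hξ₂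
    rw [← a1, ← a2]
    have b2 : ((EW A B)⁄(KE A B)).b₂ = f (RatFunc.C (EW A B).b₂) := by
      rw [hf, ← algebraMap_k]; exact WeierstrassCurve.map_b₂ _ _
    have b4 : ((EW A B)⁄(KE A B)).b₄ = f (RatFunc.C (EW A B).b₄) := by
      rw [hf, ← algebraMap_k]; exact WeierstrassCurve.map_b₄ _ _
    have b6 : ((EW A B)⁄(KE A B)).b₆ = f (RatFunc.C (EW A B).b₆) := by
      rw [hf, ← algebraMap_k]; exact WeierstrassCurve.map_b₆ _ _
    have b8 : ((EW A B)⁄(KE A B)).b₈ = f (RatFunc.C (EW A B).b₈) := by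
      rw [hf, ← algebraMap_k]; exact WeierstrassCurve.map_b₈ _ _
    rw [b2, b4, b6, b8]
    rfl
  rw [e34, e12] at hrel
  set s := sym2 ξ₃ ξ₄ with hs
  set t := phi (RatFunc.C (EW A B).b₂) (RatFunc.C (EW A B).b₄) (RatFunc.C (EW A B).b₆)
    (RatFunc.C (EW A B).b₈) (sym2 ξ₁ ξ₂) with ht
  have hne : (P + Q).sym2x (P - Q) ≠ 0 := Point.sym2x_ne_zero _ _
  rw [e34] at hne
  obtain ⟨i, hi⟩ : ∃ i, f (s i) ≠ 0 := by
    by_contra hcon
    push Not at hcon
    exact hne (funext hcon)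
  have hreli := congrFun hrel i
  simp only [Pi.smul_apply, smul_eq_mul] at hreli
  have hti : f (t i) ≠ 0 := by
    intro h0
    rw [h0, mul_zero] at hreli
    exact hi hreli
  have hti' : t i ≠ 0 := fun h0 => hti (by rw [h0, map_zero])
  have hsi' : s i ≠ 0 := fun h0 => hi (by rw [h0, map_zero])
  have hc' : c = f (s i / t i) := by
    rw [map_div₀, hreli, mul_div_assoc, div_self hti, mul_one]
  refine ⟨s i / t i, div_ne_zero hsi' hti', funext fun j => ?_⟩
  apply algebraMap_injective A B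
  have hrelj := congrFun hrel j
  simp only [Pi.smul_apply, smul_eq_mul] at hrelj ⊢
  rw [map_mul, ← hf, ← hc', hrelj]

variable (A B)

open Classical in
/-- the degree of (the `x`-coordinate of) an odd point -/
noncomputable def dg (P : PK A B) : ℕ := if h : ∃ N, HasD A B P N then h.choose else 0

variable {A B}

lemma dg_eq {P : PK A B} {N : ℕ} (h : HasD A B P N) : dg A B P = N := by
  have hex : ∃ N, HasD A B P N := ⟨N, h⟩
  rw [dg, dif_pos hex]
  exact hex.choose_spec.unique h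

lemma HasD_dg (h2 : (2 : k) ≠ 0) {P : PK A B} (hP : P ∈ M A B) : HasD A B P (dg A B P) := by
  obtain ⟨N, hN⟩ := exists_HasD h2 hP
  rwa [dg_eq hN]

lemma dg_parallelogram (h2 : (2 : k) ≠ 0) (hΔ : 4 * A ^ 3 + 27 * B ^ 2 ≠ 0) (P Q : M A B) :
    (dg A B ((P + Q : M A B) : PK A B) : ℤ) + dg A B ((P - Q : M A B) : PK A B)
      = 2 * dg A B (P : PK A B) + 2 * dg A B (Q : PK A B) := by
  have := HasD_parallelogram h2 hΔ (HasD_dg h2 P.2) (HasD_dg h2 Q.2) (HasD_dg h2 (P + Q).2)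
    (HasD_dg h2 (P - Q).2)
  exact_mod_cast this

end Fermat.Agent.S52.CH
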